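import Fermat.Agent.Klurman.Signs
import Fermat.Agent.ErdosDiscrepancy.Elliott
import Fermat.Agent.ErdosDiscrepancy.Reduction

/-!
# The two-point theorem for multiplicative sequences of signs

Up to a set of small density `f` is `g a`, `g` completely multiplicative and `a` a function of
the valuations at the primes up to `Y`. As the signs are real, `a n a (n + h)` depends only on
the differences of the valuations, so it is a combination of `κ n conj (κ (n + h))` over the
completely multiplicative `κ` carried by those primes, and the two-point theorem applies to `g κ`.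
-/

set_option autoImplicit false

noncomputable section

namespace FA.Klurman

open Finset Filter Complex
open FA.ErdosDisc (mass gap massConst twistHom NonPretentious corrMean Expo expoVec primesTo wave
  waveHom)
open FA.LogChowla (logMean logW harm)
open scoped ComplexConjugate

/-- The sequence in `ℂ`. -/
def cast0 (f : ℕ → ℤ) (n : ℕ) : ℂ := if n = 0 then 0 else (f n : ℂ)

/-- The completely multiplicative sequence with the values of `f` at the primes. -/
def primeHom (f : ℕ → ℤ) : ℕ →*₀ ℂ := Halasz.cmExt fun p => (f p : ℂ)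

/-- The correction at the power `p ^ v`. -/
def rho (f : ℕ → ℤ) (p v : ℕ) : ℤ := f (p ^ v) * f p ^ v

/-- The product of two corrections at the distance `h`, from the difference of the valuations. -/
def pairRho (f : ℕ → ℤ) (h p : ℕ) {M : ℕ} (c : ZMod M) : ℤ :=
  if c = 0 then 1
  else rho f p (h.factorization p + c.valMinAbs.natAbs) * rho f p (h.factorization p)

/-- The numbers at which the reduction fails. -/
def Exceptional (Y r n : ℕ) : Prop :=
  ∃ p : ℕ, p.Prime ∧ ((Y < p ∧ p ^ 2 ∣ n) ∨ (p ≤ Y ∧ p ^ r ∣ n))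

variable {f : ℕ → ℤ}

theorem norm_cast0 (hf : SignFun f) {n : ℕ} (hn : n ≠ 0) : ‖cast0 f n‖ = 1 := by
  rw [cast0, if_neg hn]
  rcases hf.sign n hn with e | e <;> simp [e]

theorem norm_cast0_le (hf : SignFun f) (n : ℕ) : ‖cast0 f n‖ ≤ 1 := by
  rcases eq_or_ne n 0 with rfl | hn
  · simp [cast0]
  · exact (norm_cast0 hf hn).le

theorem conj_cast0 (f : ℕ → ℤ) (n : ℕ) : conj (cast0 f n) = cast0 f n := by
  rw [cast0]
  split_ifs <;> simp

theorem conj_primeHom (f : ℕ → ℤ) (n : ℕ) : conj (primeHom f n) = primeHom f n := by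
  rcases eq_or_ne n 0 with rfl | hn
  · simp
  rw [primeHom, Halasz.cmExt_apply _ hn, map_finsuppProd]
  simp

theorem norm_primeHom (hf : SignFun f) {n : ℕ} (hn : n ≠ 0) : ‖primeHom f n‖ = 1 := by
  rw [primeHom, Halasz.cmExt_apply _ hn, Finsupp.prod, norm_prod]
  refine prod_eq_one fun p hp => ?_
  rw [Nat.support_factorization] at hp
  rw [norm_pow]
  rcases hf.sign p (Nat.prime_of_mem_primeFactors hp).ne_zero with e | e <;> simp [e]

theorem rho_sq (hf : SignFun f) {p : ℕ} (hp : p.Prime) (v : ℕ) : rho f p v * rho f p v = 1 := by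
  rw [rho, mul_mul_mul_comm, hf.sq_eq (pow_ne_zero v hp.ne_zero), ← mul_pow, hf.sq_eq hp.ne_zero,
    one_pow, one_mul]

/-- `f = g a` away from the exceptional numbers. -/
theorem cast0_eq_mul (hf : SignFun f) {Y r n : ℕ} (hn : n ≠ 0) (hex : ¬Exceptional Y r n) :
    cast0 f n = primeHom f n *
      ∏ p : ↥(primesTo Y), (rho f p (n.factorization p) : ℂ) := by
  classical
  rw [prod_coe_sort (primesTo Y) fun p => (rho f p (n.factorization p) : ℂ)]
  obtain ⟨U, hU⟩ : ∃ U, U = primesTo Y ∪ n.factorization.support := ⟨_, rfl⟩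
  have hsupp : n.factorization.support ⊆ U := hU ▸ subset_union_right
  have hext : ∏ p ∈ primesTo Y, (rho f p (n.factorization p) : ℂ) =
      ∏ p ∈ U, if p ∈ primesTo Y then (rho f p (n.factorization p) : ℂ) else 1 := by
    rw [prod_ite_mem, hU, union_inter_cancel_left]
  rw [cast0, if_neg hn, hext, primeHom, Halasz.cmExt_apply _ hn,
    Nat.multiplicative_factorization (fun m => (f m : ℂ))
      (fun a b hab => by simp [hf.mul a b hab]) (by simp [hf.map_one']) hn,
    Finsupp.prod_of_support_subset _ hsupp _ (fun p _ => by simp [hf.map_one']),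
    Finsupp.prod_of_support_subset _ hsupp _ (fun p _ => pow_zero _), ← prod_mul_distrib]
  refine prod_congr rfl fun p hp => ?_
  have hpp : p.Prime := by
    rw [hU, mem_union, Nat.support_factorization] at hp
    rcases hp with h | h
    exacts [(mem_filter.1 h).2, Nat.prime_of_mem_primeFactors h]
  split_ifs with hpY
  · have h1 : (f p : ℂ) ^ n.factorization p * (f p : ℂ) ^ n.factorization p = 1 := by
      rw [← mul_pow, ← Int.cast_mul, hf.sq_eq hpp.ne_zero, Int.cast_one, one_pow]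
    rw [rho, Int.cast_mul, Int.cast_pow, mul_left_comm, h1, mul_one]
  · rw [mul_one]
    have hY : Y < p := by
      by_contra! h
      exact hpY (mem_filter.2 ⟨mem_Icc.2 ⟨hpp.one_le, h⟩, hpp⟩)
    have hv : n.factorization p ≤ 1 := by
      by_contra! h
      exact hex ⟨p, hpp, Or.inl ⟨hY, (hpp.pow_dvd_iff_le_factorization hn).2 h⟩⟩
    interval_cases n.factorization p <;> simp [hf.map_one']

theorem factorization_eq_of_lt {a b p : ℕ} (hp : p.Prime) (ha : a ≠ 0) (hb : b ≠ 0)
    (h : a.factorization p < (a + b).factorization p) :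
    b.factorization p = a.factorization p := by
  have hab : a + b ≠ 0 := by omega
  have hd : ∀ k, p ^ k ∣ a + b ↔ k ≤ (a + b).factorization p := fun k =>
    hp.pow_dvd_iff_le_factorization hab
  refine le_antisymm ?_ ?_
  · by_contra! hlt
    have h1 := (hp.pow_dvd_iff_le_factorization ha).1
      ((Nat.dvd_add_left ((hp.pow_dvd_iff_le_factorization hb).2 hlt)).1 ((hd _).2 h))
    omega
  · exact (hp.pow_dvd_iff_le_factorization hb).1
      ((Nat.dvd_add_right (Nat.ordProj_dvd a p)).1 ((hd _).2 h.le))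

theorem factorization_eq_of_gt {a b p : ℕ} (hp : p.Prime) (ha : a ≠ 0) (hb : b ≠ 0)
    (h : (a + b).factorization p < a.factorization p) :
    b.factorization p = (a + b).factorization p := by
  have hab : a + b ≠ 0 := by omega
  have hda : ∀ k, k ≤ a.factorization p → p ^ k ∣ a := fun k =>
    (hp.pow_dvd_iff_le_factorization ha).2
  refine le_antisymm ?_ ?_
  · by_contra! hlt
    have h1 := (hp.pow_dvd_iff_le_factorization hab).1
      (Nat.dvd_add (hda _ h) ((hp.pow_dvd_iff_le_factorization hb).2 hlt))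
    omega
  · exact (hp.pow_dvd_iff_le_factorization hb).1
      ((Nat.dvd_add_right (hda _ h.le)).1 (Nat.ordProj_dvd (a + b) p))

/-- Only the differences of the valuations matter. -/
theorem rho_mul_rho (hf : SignFun f) {Y r n h : ℕ} (hn : n ≠ 0) (hh : h ≠ 0)
    (hex : ¬Exceptional Y r n) (hex' : ¬Exceptional Y r (n + h)) (p : ↥(primesTo Y)) :
    rho f p (n.factorization p) * rho f p ((n + h).factorization p) =
      pairRho f h p ((expoVec Y (2 * r + 1) n - expoVec Y (2 * r + 1) (n + h)) p) := by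
  obtain ⟨hpI, hp⟩ := mem_filter.1 p.2
  have hlt : ∀ a, a ≠ 0 → ¬Exceptional Y r a → a.factorization p < r := fun a ha he => by
    by_contra! hle
    exact he ⟨p, hp, Or.inr ⟨(mem_Icc.1 hpI).2, (hp.pow_dvd_iff_le_factorization ha).2 hle⟩⟩
  have h1 := hlt n hn hex
  have h2 := hlt (n + h) (by omega) hex'
  obtain ⟨i, hi⟩ : ∃ i, i = n.factorization p := ⟨_, rfl⟩
  obtain ⟨j, hj⟩ : ∃ j, j = (n + h).factorization p := ⟨_, rfl⟩
  rw [← hi] at h1
  rw [← hj] at h2
  have hval : ((expoVec Y (2 * r + 1) n - expoVec Y (2 * r + 1) (n + h)) p).valMinAbs =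
      (i : ℤ) - j := by
    refine (ZMod.valMinAbs_spec _ _).2 ⟨?_, ?_, ?_⟩
    · simp [expoVec, hi, hj]
    · push_cast
      omega
    · push_cast
      omega
  rw [← hi, ← hj, pairRho]
  obtain ⟨x, hx⟩ : ∃ x, x = (expoVec Y (2 * r + 1) n - expoVec Y (2 * r + 1) (n + h)) p := ⟨_, rfl⟩
  rw [← hx] at hval ⊢
  have hx0 : x = 0 ↔ (i : ℤ) - j = 0 := by rw [← hval, ZMod.valMinAbs_eq_zero]
  rw [hval]
  rcases lt_trichotomy i j with hij | rfl | hij
  · have e := factorization_eq_of_lt hp hn hh (hi ▸ hj ▸ hij)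
    rw [← hi] at e
    rw [if_neg (hx0.not.2 (by omega)), e, show i + ((i : ℤ) - j).natAbs = j by omega, mul_comm]
  · rw [if_pos (hx0.2 (sub_self _)), rho_sq hf hp]
  · have e := factorization_eq_of_gt hp hn hh (hi ▸ hj ▸ hij)
    rw [← hj] at e
    rw [if_neg (hx0.not.2 (by omega)), e, show j + ((i : ℤ) - j).natAbs = i by omega]

theorem norm_pairRho (hf : SignFun f) (h : ℕ) {p : ℕ} (hp : p.Prime) {M : ℕ} (c : ZMod M) :
    ‖(pairRho f h p c : ℂ)‖ = 1 := by
  have h1 : ∀ v, ‖(rho f p v : ℂ)‖ = 1 := fun v => by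
    rcases Int.isUnit_iff.1 (IsUnit.of_mul_eq_one _ (rho_sq hf hp v)) with e | e <;> simp [e]
  rw [pairRho]
  split_ifs
  · simp
  · rw [Int.cast_mul, norm_mul, h1, h1, one_mul]

theorem waveHom_apply_all {X M : ℕ} [NeZero M] (ξ : Expo X M) {n : ℕ} (hn : n ≠ 0) :
    waveHom ξ n = wave ξ (expoVec X M n) := by
  classical
  obtain ⟨U, hU⟩ : ∃ U, U = primesTo X ∪ n.factorization.support := ⟨_, rfl⟩
  rw [wave, ErdosDisc.stdAddChar_sum, waveHom, Halasz.cmExt_apply _ hn,
    Finsupp.prod_of_support_subset _ (hU ▸ subset_union_right : n.factorization.support ⊆ U) _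
      (fun p _ => pow_zero _)]
  rw [← prod_subset (hU ▸ subset_union_left : primesTo X ⊆ U) fun p _ hp => by
      rw [dif_neg hp, one_pow],
    ← prod_coe_sort (primesTo X)]
  refine prod_congr rfl fun p _ => ?_
  rw [dif_pos p.2, expoVec, mul_comm, ← nsmul_eq_mul, AddChar.map_nsmul_eq_pow]

/-- The expansion on the group of exponents. -/
theorem exists_wave_expansion {X M : ℕ} [NeZero M] (Φ : Expo X M → ℂ) (hΦ : ∀ x, ‖Φ x‖ ≤ 1) :
    ∃ c : Expo X M → ℂ, (∀ ξ, ‖c ξ‖ ≤ 1) ∧ ∀ x, Φ x = ∑ ξ, c ξ * wave ξ x := by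
  obtain ⟨G, hG⟩ : ∃ G, G = Fintype.card (Expo X M) := ⟨_, rfl⟩
  have hG0 : 0 < G := hG ▸ Fintype.card_pos
  refine ⟨fun ξ => (G : ℂ)⁻¹ * ∑ z, Φ z * conj (wave ξ z), fun ξ => ?_, fun x => ?_⟩
  · rw [norm_mul, norm_inv, Complex.norm_natCast, inv_mul_le_iff₀ (Nat.cast_pos.2 hG0)]
    refine (norm_sum_le _ _).trans ((sum_le_card_nsmul _ _ 1 fun z _ => ?_).trans_eq ?_)
    · rw [norm_mul, Complex.norm_conj, ErdosDisc.norm_wave, mul_one]
      exact hΦ z
    · rw [card_univ, ← hG, nsmul_eq_mul]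
  · simp only [mul_sum, sum_mul]
    rw [sum_comm]
    have e : ∀ z ξ, (G : ℂ)⁻¹ * (Φ z * conj (wave ξ z)) * wave ξ x =
        (G : ℂ)⁻¹ * Φ z * wave ξ (x - z) := fun z ξ => by
      rw [sub_eq_add_neg, ErdosDisc.wave_add, ErdosDisc.wave_neg]
      ring
    rw [sum_congr rfl fun z _ => sum_congr rfl fun ξ _ => e z ξ]
    simp only [← mul_sum, ErdosDisc.sum_wave, sub_eq_zero, mul_ite, mul_zero, sum_ite_eq, mem_univ,
      if_true]
    rw [← hG]
    field_simp [Nat.cast_ne_zero.2 hG0.ne']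

/-- The product of two values away from the exceptional numbers. -/
theorem cast0_mul_eq (hf : SignFun f) {Y r h : ℕ} (hh : h ≠ 0) :
    ∃ c : Expo Y (2 * r + 1) → ℂ, (∀ ξ, ‖c ξ‖ ≤ 1) ∧
      (∀ n, ‖∑ ξ, c ξ * ((primeHom f * waveHom ξ) n *
        conj ((primeHom f * waveHom ξ) (n + h)))‖ ≤ 1) ∧
      ∀ n, n ≠ 0 → ¬Exceptional Y r n → ¬Exceptional Y r (n + h) →
        cast0 f n * conj (cast0 f (n + h)) = ∑ ξ, c ξ * ((primeHom f * waveHom ξ) n *
          conj ((primeHom f * waveHom ξ) (n + h))) := by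
  obtain ⟨c, hc, hΦ⟩ := exists_wave_expansion
    (fun x : Expo Y (2 * r + 1) => ∏ p : ↥(primesTo Y), (pairRho f h p (x p) : ℂ)) fun x => by
      rw [norm_prod]
      exact (prod_eq_one fun p _ => norm_pairRho hf h (mem_filter.1 p.2).2 _).le
  have e : ∀ n, n ≠ 0 → ∑ ξ, c ξ * ((primeHom f * waveHom ξ) n *
      conj ((primeHom f * waveHom ξ) (n + h))) = primeHom f n * primeHom f (n + h) *
        ∏ p : ↥(primesTo Y),
          (pairRho f h p ((expoVec Y (2 * r + 1) n - expoVec Y (2 * r + 1) (n + h)) p) : ℂ) :=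
    fun n hn => by
    rw [hΦ, mul_sum]
    refine sum_congr rfl fun ξ _ => ?_
    rw [ErdosDisc.mul_hom_apply, ErdosDisc.mul_hom_apply, waveHom_apply_all ξ hn,
      waveHom_apply_all ξ (by omega : n + h ≠ 0), map_mul, conj_primeHom, sub_eq_add_neg,
      ErdosDisc.wave_add, ErdosDisc.wave_neg]
    ring
  refine ⟨c, hc, fun n => ?_, fun n hn hex hex' => ?_⟩
  · rcases eq_or_ne n 0 with rfl | hn
    · simp
    · rw [e n hn, norm_mul, norm_mul, norm_primeHom hf hn, norm_primeHom hf (by omega), norm_prod,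
        one_mul, one_mul]
      exact (prod_eq_one fun p _ => norm_pairRho hf h (mem_filter.1 p.2).2 _).le
  · rw [e n hn, conj_cast0, cast0_eq_mul hf hn hex, cast0_eq_mul hf (by omega) hex',
      mul_mul_mul_comm, ← prod_mul_distrib]
    congr 1
    refine prod_congr rfl fun p _ => ?_
    rw [← Int.cast_mul, rho_mul_rho hf hn hh hex hex' p]

/-- The exceptional numbers are rare. -/
theorem logMean_exceptional_le (Y r N : ℕ) [DecidablePred (Exceptional Y r)] :
    (logMean N fun n => if Exceptional Y r n then (1 : ℝ) else 0) ≤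
      2 / (Y + 1) + Y / 2 ^ r := by
  classical
  rcases Nat.eq_zero_or_pos N with rfl | hN
  · simp [logMean]
    positivity
  have hdvd : ∀ P : ℕ, 0 < P → (logMean N fun n => if P ∣ n then (1 : ℝ) else 0) ≤ 1 / (P : ℝ) :=
    fun P hP => by
    rw [LogChowla.logMean_eq, div_le_iff₀ (LogChowla.harm_pos hN)]
    simp only [mul_ite, mul_one, mul_zero]
    rw [← sum_filter, Katai.sum_filter_dvd hP]
    simp only [Nat.cast_mul, mul_inv, ← mul_sum]
    rw [one_div]
    exact mul_le_mul_of_nonneg_left (sum_le_sum_of_subset_of_nonneg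
      (Icc_subset_Icc_right (Nat.div_le_self N P)) fun n _ _ => by positivity) (by positivity)
  obtain ⟨S, hS⟩ : ∃ S, S = (Ioo Y (N + 1)).filter Nat.Prime := ⟨_, rfl⟩
  obtain ⟨T, hT⟩ : ∃ T, T = (Icc 1 Y).filter Nat.Prime := ⟨_, rfl⟩
  have hpt : ∀ n ∈ Icc 1 N, (if Exceptional Y r n then (1 : ℝ) else 0) ≤
      (∑ p ∈ S, if p ^ 2 ∣ n then (1 : ℝ) else 0) + ∑ p ∈ T, if p ^ r ∣ n then (1 : ℝ) else 0 := by
    intro n hn
    have h0 : ∀ (s : Finset ℕ) (k : ℕ), 0 ≤ ∑ p ∈ s, if p ^ k ∣ n then (1 : ℝ) else 0 :=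
      fun s k => sum_nonneg fun p _ => by split_ifs <;> norm_num
    split_ifs with hE
    · obtain ⟨p, hp, hd⟩ := hE
      rw [mem_Icc] at hn
      rcases hd with ⟨hY, hd⟩ | ⟨hY, hd⟩
      · have hpN : p ≤ n :=
          (Nat.le_self_pow two_ne_zero p).trans (Nat.le_of_dvd hn.1 hd)
        refine le_add_of_le_of_nonneg (le_trans (le_of_eq (if_pos hd).symm)
          (single_le_sum (f := fun q => if q ^ 2 ∣ n then (1 : ℝ) else 0)
            (fun q _ => by split_ifs <;> norm_num) ?_)) (h0 _ _)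
        exact hS ▸ mem_filter.2 ⟨mem_Ioo.2 ⟨hY, by omega⟩, hp⟩
      · refine le_add_of_nonneg_of_le (h0 _ _) (le_trans (le_of_eq (if_pos hd).symm)
          (single_le_sum (f := fun q => if q ^ r ∣ n then (1 : ℝ) else 0)
            (fun q _ => by split_ifs <;> norm_num) ?_))
        exact hT ▸ mem_filter.2 ⟨mem_Icc.2 ⟨hp.one_le, hY⟩, hp⟩
    · exact add_nonneg (h0 _ _) (h0 _ _)
  refine le_trans (sum_le_sum fun n hn => mul_le_mul_of_nonneg_left (hpt n hn)
    (LogChowla.logW_nonneg N n)) ?_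
  simp only [mul_add, sum_add_distrib, mul_sum]
  rw [sum_comm, sum_comm (t := T)]
  refine add_le_add ?_ ?_
  · refine (sum_le_sum (g := fun p : ℕ => ((p : ℝ) ^ 2)⁻¹) fun p hp => ?_).trans ?_
    · refine (hdvd (p ^ 2) (pow_pos (mem_filter.1 (hS ▸ hp)).2.pos 2)).trans (le_of_eq ?_)
      push_cast
      rw [one_div]
    · exact (sum_le_sum_of_subset_of_nonneg (hS ▸ filter_subset _ _)
        fun p _ _ => by positivity).trans (sum_Ioo_inv_sq_le Y (N + 1))
  · refine (sum_le_card_nsmul _ _ (1 / 2 ^ r) fun p hp => ?_).trans ?_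
    · have hp' := (mem_filter.1 (hT ▸ hp)).2
      refine (hdvd (p ^ r) (pow_pos hp'.pos r)).trans (one_div_le_one_div_of_le (by positivity) ?_)
      push_cast
      exact pow_le_pow_left₀ two_pos.le (by exact_mod_cast hp'.two_le) r
    · rw [nsmul_eq_mul, mul_one_div]
      refine div_le_div_of_nonneg_right (Nat.cast_le.2 ?_) (by positivity)
      exact (card_le_card (hT ▸ filter_subset _ _)).trans (by simp)

theorem eventually_nonPretentious_twist (hf : SignFun f) (Y : ℕ) {δ : ℝ} (hδ : 0 < δ) (W : ℕ) :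
    ∃ δ' : ℝ, 0 < δ' ∧ ∀ᶠ N : ℕ in atTop, NonPretentious (primeHom f) δ' W N →
      ∀ (M : ℕ) [NeZero M] (ξ : Expo Y M), NonPretentious (primeHom f * waveHom ξ) δ W N := by
  obtain ⟨K, hK⟩ : ∃ K : ℝ, K = massConst ^ 2 * Real.exp (2 * Y.factorial) := ⟨_, rfl⟩
  have hK0 : 0 < K := by
    have := ErdosDisc.massConst_pos
    rw [hK]
    positivity
  refine ⟨δ / K, div_pos hδ hK0, ?_⟩
  filter_upwards [(Real.tendsto_log_atTop.comp tendsto_natCast_atTop_atTop).eventually
    (ErdosDisc.eventually_mass_gap.and (eventually_gt_atTop (0 : ℝ)))] with N hN hnp M _ ξ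
  simp only [Function.comp_apply] at hN
  intro b hb hbW χ u hu
  have hg1 : ∀ n, ‖primeHom f n‖ ≤ 1 := fun n => by
    rcases eq_or_ne n 0 with rfl | hn
    · simp
    · exact (norm_primeHom hf hn).le
  have hw1 : ∀ n, ‖waveHom ξ n‖ ≤ 1 :=
    ErdosDisc.norm_le_one_of_unimodular fun n hn => ErdosDisc.norm_waveHom ξ hn
  have hG1 := ErdosDisc.norm_mul_hom_le hg1 hw1
  have hgap := ErdosDisc.gap_le_add (ErdosDisc.norm_twistHom_le hg1 χ)
    (ErdosDisc.norm_twistHom_le hG1 χ) Y.factorial_ne_zero (fun p hp hpY => ?_) hN.2 u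
  · have h1 := (hN.1 _ (ErdosDisc.norm_twistHom_le hG1 χ) u).2
    have h2 := (hN.1 _ (ErdosDisc.norm_twistHom_le hg1 χ) u).1
    have h3 : Real.exp (-gap (twistHom (primeHom f * waveHom ξ) χ) (Real.log N) u) ≤
        Real.exp (2 * Y.factorial) * Real.exp (-gap (twistHom (primeHom f) χ) (Real.log N) u) := by
      rw [← Real.exp_add, Real.exp_le_exp]
      linarith
    have h4 := hnp b hb hbW χ u hu
    have hM := ErdosDisc.massConst_pos
    calc mass (twistHom (primeHom f * waveHom ξ) χ) (Real.log N) u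
        ≤ massConst * (Real.exp (2 * Y.factorial) *
            (massConst * (δ / K))) := h1.trans (mul_le_mul_of_nonneg_left (h3.trans
          (mul_le_mul_of_nonneg_left (h2.trans (mul_le_mul_of_nonneg_left h4 hM.le))
            (Real.exp_pos _).le)) hM.le)
      _ = δ := by
          rw [hK]
          field_simp
  · rw [ErdosDisc.twistHom_apply _ χ hp.ne_zero, ErdosDisc.twistHom_apply _ χ hp.ne_zero,
      ErdosDisc.mul_hom_apply, waveHom, Halasz.cmExt_prime _ hp, dif_neg fun h => hpY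
        (hp.dvd_factorial.2 (mem_Icc.1 (mem_filter.1 h).1).2), mul_one]

/-- **The two-point theorem for a multiplicative sequence of signs.** -/
theorem exists_corr_le (hf : SignFun f) (H : ℕ) {ε : ℝ} (hε : 0 < ε) : ∃ (δ : ℝ) (W : ℕ),
    0 < δ ∧ ∀ᶠ N : ℕ in atTop, NonPretentious (primeHom f) δ W N →
      ∀ h : ℕ, 1 ≤ h → h ≤ H → ‖corrMean (cast0 f) N h‖ ≤ ε := by
  classical
  obtain ⟨Y, hY⟩ : ∃ Y : ℕ, Y = ⌈32 / ε⌉₊ := ⟨_, rfl⟩
  obtain ⟨r, hr⟩ := exists_pow_lt_of_lt_one (show 0 < ε / (16 * (Y + 1)) by positivity)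
    (show (1 / 2 : ℝ) < 1 by norm_num)
  obtain ⟨G, hG⟩ : ∃ G, G = Fintype.card (Expo Y (2 * r + 1)) := ⟨_, rfl⟩
  have hG0 : (0 : ℝ) < G := Nat.cast_pos.2 (hG ▸ Fintype.card_pos)
  obtain ⟨δ, W, hδ, hell⟩ := ErdosDisc.exists_elliott_le H (show 0 < ε / (4 * G) by positivity)
  obtain ⟨δ', hδ', htw⟩ := eventually_nonPretentious_twist hf Y hδ W
  refine ⟨δ', W, hδ', ?_⟩
  filter_upwards [hell, htw, LogChowla.eventually_div_harm_le (3 * (H : ℝ))
    (show 0 < ε / 16 by positivity)] with N hN hNtw hNerr hnp h h1 hH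
  obtain ⟨c, hc, hmain1, hmain⟩ := cast0_mul_eq hf (Y := Y) (r := r) (show h ≠ 0 by omega)
  obtain ⟨ψ, hψ⟩ : ∃ ψ : ℕ → ℝ, ψ = fun n => if Exceptional Y r n then 1 else 0 := ⟨_, rfl⟩
  have hψ0 : ∀ n, 0 ≤ ψ n := fun n => by
    rw [hψ]
    simp only
    split_ifs <;> norm_num
  have hψ1 : ∀ n, |ψ n| ≤ 1 := fun n => by
    rw [hψ]
    simp only
    split_ifs <;> norm_num
  have hsmall : logMean N ψ ≤ ε / 8 := by
    refine (hψ ▸ logMean_exceptional_le Y r N).trans ?_
    have hY' : 32 / ε ≤ (Y : ℝ) + 1 := by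
      have := hY ▸ Nat.le_ceil (32 / ε)
      linarith
    rw [div_le_iff₀ hε] at hY'
    have e1 : 2 / ((Y : ℝ) + 1) ≤ ε / 16 := by
      rw [div_le_iff₀ (by positivity)]
      linarith
    have e2 : (Y : ℝ) / 2 ^ r ≤ ε / 16 := by
      rw [one_div_pow] at hr
      calc (Y : ℝ) / 2 ^ r = Y * (1 / 2 ^ r) := by ring
        _ ≤ ((Y : ℝ) + 1) * (ε / (16 * (Y + 1))) :=
            mul_le_mul (by linarith) hr.le (by positivity) (by positivity)
        _ = ε / 16 := by field_simp
    linarith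
  have hsmall' : (logMean N fun n => ψ (n + h)) ≤ ε / 4 := by
    have := abs_le.1 (LogChowla.abs_logMean_shift_sub_le N ψ hψ1 h)
    have h2 : 3 * (h : ℝ) * 1 / harm N ≤ ε / 16 := by
      refine le_trans ?_ hNerr
      refine div_le_div_of_nonneg_right ?_ (LogChowla.harm_nonneg N)
      have : (h : ℝ) ≤ H := Nat.cast_le.2 hH
      linarith
    linarith [this.2]
  have hmainsum : ‖∑ ξ, c ξ * corrMean (⇑(primeHom f * waveHom ξ)) N h‖ ≤ ε / 4 := by
    refine (norm_sum_le _ _).trans ((sum_le_card_nsmul _ _ (ε / (4 * G)) fun ξ _ => ?_).trans_eq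
      (by rw [card_univ, ← hG, nsmul_eq_mul]; field_simp))
    rw [norm_mul]
    refine (mul_le_of_le_one_left (norm_nonneg _) (hc ξ)).trans
      (hN _ (fun n hn => ?_) (hNtw hnp _ ξ) h h1 hH)
    rw [ErdosDisc.mul_hom_apply, norm_mul, norm_primeHom hf hn, ErdosDisc.norm_waveHom ξ hn,
      one_mul]
  have hdiff : ‖corrMean (cast0 f) N h -
      ∑ ξ, c ξ * corrMean (⇑(primeHom f * waveHom ξ)) N h‖ ≤
        logMean N fun n => 2 * (ψ n + ψ (n + h)) := by
    simp only [corrMean, mul_sum]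
    rw [sum_comm, ← sum_sub_distrib]
    refine (norm_sum_le _ _).trans (sum_le_sum fun n hn => ?_)
    rw [sum_congr rfl fun ξ _ => mul_left_comm (c ξ) _ _, ← mul_sum, ← mul_sub, norm_mul,
      Complex.norm_real, Real.norm_of_nonneg (LogChowla.logW_nonneg N n)]
    refine mul_le_mul_of_nonneg_left ?_ (LogChowla.logW_nonneg N n)
    by_cases hgood : ¬Exceptional Y r n ∧ ¬Exceptional Y r (n + h)
    · rw [hmain n (by have := (mem_Icc.1 hn).1; omega) hgood.1 hgood.2, sub_self, norm_zero]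
      exact mul_nonneg two_pos.le (add_nonneg (hψ0 _) (hψ0 _))
    · refine (norm_sub_le _ _).trans ?_
      have h2 : ‖cast0 f n * conj (cast0 f (n + h))‖ ≤ 1 := by
        rw [norm_mul, Complex.norm_conj]
        exact mul_le_one₀ (norm_cast0_le hf _) (norm_nonneg _) (norm_cast0_le hf _)
      have h3 : 1 ≤ ψ n + ψ (n + h) := by
        rcases not_and_or.1 hgood with hb | hb <;> rw [not_not] at hb
        · rw [show ψ n = 1 by rw [hψ]; exact if_pos hb]
          linarith [hψ0 (n + h)]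
        · rw [show ψ (n + h) = 1 by rw [hψ]; exact if_pos hb]
          linarith [hψ0 n]
      linarith [hmain1 n]
  have e : (logMean N fun n => 2 * (ψ n + ψ (n + h))) =
      2 * logMean N ψ + 2 * logMean N fun n => ψ (n + h) := by
    simp only [logMean, mul_sum, ← sum_add_distrib]
    exact sum_congr rfl fun n _ => by ring
  rw [e] at hdiff
  have := norm_le_norm_add_norm_sub' (corrMean (cast0 f) N h)
    (∑ ξ, c ξ * corrMean (⇑(primeHom f * waveHom ξ)) N h)
  linarith

end FA.Klurman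

end
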