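import Fermat.Agent.Klurman.Steady

/-!
# Steady sequences are pretentious at bounded height

The two-point theorem makes a steady `g` pretentious at every large scale `N`, at a height
`|u| ≤ N ^ 3`. Two such pretensions, seen at the smaller of two scales, differ by less than `16`
as soon as they differ by at most `exp (L ^ (4/3))` there, so by induction on `N`, through the
scale of logarithm `(log N) ^ (4/5)`, the heights are bounded.
-/

set_option autoImplicit false

noncomputable section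

namespace FA.Klurman

open Finset Filter Complex DirichletCharacter
open FA.ErdosDisc (mass massConst twistHom charHom conjHom NonPretentious corrMean)
open FA.LogChowla (logMean logW harm)
open scoped Topology

theorem eventually_pair_close (W : ℕ) {δ : ℝ} (hδ : 0 < δ) :
    ∀ᶠ L : ℝ in atTop, ∀ g : ℕ →*₀ ℂ, (∀ n, n ≠ 0 → ‖g n‖ = 1) → ∀ b ∈ Icc 1 W, ∀ b' ∈ Icc 1 W,
      ∀ (χ : DirichletCharacter ℂ b) (χ' : DirichletCharacter ℂ b') (t t' : ℝ),
        δ ≤ mass (twistHom g χ) L t → δ ≤ mass (twistHom g χ') L t' →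
          |t - t'| ≤ Real.exp (L ^ (4 / 3 : ℝ)) → |t - t'| < 16 := by
  obtain ⟨ε, hε⟩ : ∃ ε, ε = δ ^ 4 / (2 * massConst ^ 5) := ⟨_, rfl⟩
  have hM := ErdosDisc.massConst_pos
  have hε0 : 0 < ε := hε ▸ by positivity
  have h : ∀ᶠ L : ℝ in atTop, ∀ b ∈ Icc 1 W, ∀ b' ∈ Icc 1 W, ∀ ψ : DirichletCharacter ℂ (b * b'),
      ∀ u : ℝ, |u| ≤ Real.exp (L ^ (4 / 3 : ℝ)) → (ψ ≠ 1 ∨ 16 ≤ |u|) →
        mass (charHom ψ) L u ≤ ε :=
    (eventually_all_finset _).2 fun b hb => (eventually_all_finset _).2 fun b' hb' =>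
      have : NeZero (b * b') := ⟨Nat.mul_ne_zero (by have := (mem_Icc.1 hb).1; omega)
        (by have := (mem_Icc.1 hb').1; omega)⟩
      ErdosDisc.eventually_mass_char_le (b * b') hε0
  filter_upwards [h, ErdosDisc.eventually_mass_mul_conj] with L hsmall htri
  intro g hg b hb b' hb' χ χ' t t' hm hm' hd
  by_contra! hge
  have hg1 := ErdosDisc.norm_le_one_of_unimodular hg
  obtain ⟨Ψ, hΨ⟩ : ∃ Ψ : DirichletCharacter ℂ (b * b'),
      Ψ = changeLevel (dvd_mul_right b b') χ * changeLevel (dvd_mul_left b' b) χ'⁻¹ := ⟨_, rfl⟩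
  have : NeZero (b * b') := ⟨Nat.mul_ne_zero (by have := (mem_Icc.1 hb).1; omega)
    (by have := (mem_Icc.1 hb').1; omega)⟩
  have heq : mass (twistHom g χ * conjHom (twistHom g χ')) L (t - t') =
      mass (charHom Ψ) L (t - t') := by
    refine ErdosDisc.mass_congr (fun n hn => ?_) L _
    rw [ErdosDisc.mul_hom_apply, ErdosDisc.conjHom_apply, ErdosDisc.twistHom_apply g χ hn,
      ErdosDisc.twistHom_apply g χ' hn, ErdosDisc.charHom_apply Ψ hn, map_mul, hΨ,
      MulChar.mul_apply, ErdosDisc.changeLevel_eval,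
      ErdosDisc.changeLevel_eval,
      show starRingEnd ℂ (χ' (n : ZMod b')) = χ'⁻¹ (n : ZMod b') from MulChar.star_apply' χ' _]
    have h1 : g n * starRingEnd ℂ (g n) = 1 := by
      rw [mul_conj', hg n hn]
      simp
    split_ifs with hcop
    · linear_combination (χ (n : ZMod b) * χ'⁻¹ (n : ZMod b')) * h1
    · rw [mul_zero]
      rw [Nat.coprime_mul_iff_right, not_and_or] at hcop
      rcases hcop with hcop | hcop
      · rw [MulChar.map_nonunit χ fun hu => hcop ((ZMod.isUnit_iff_coprime n b).1 hu)]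
        ring
      · rw [MulChar.map_nonunit χ'⁻¹ fun hu => hcop ((ZMod.isUnit_iff_coprime n b').1 hu)]
        ring
  have h2 := htri (twistHom g χ) (twistHom g χ') (ErdosDisc.norm_twistHom_le hg1 χ)
    (ErdosDisc.norm_twistHom_le hg1 χ') t t'
  rw [heq] at h2
  have h3 := hsmall b hb b' hb' Ψ (t - t') hd (Or.inr hge)
  have h4 : δ ^ 2 * δ ^ 2 ≤ massConst ^ 5 * ε :=
    (mul_le_mul (pow_le_pow_left₀ hδ.le hm 2) (pow_le_pow_left₀ hδ.le hm' 2) (by positivity)
      (by positivity)).trans (h2.trans (mul_le_mul_of_nonneg_left h3 (by positivity)))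
  have h5 : massConst ^ 5 * ε = δ ^ 4 / 2 := by
    rw [hε]
    field_simp
  nlinarith [pow_pos hδ 4]

/-- A steady unimodular `g` is pretentious at every large scale. -/
theorem exists_pretentious_of_steady {g : ℕ →*₀ ℂ} (hg : ∀ n, n ≠ 0 → ‖g n‖ = 1)
    (h : Tendsto (fun N : ℕ => (∑ n ∈ Icc 1 N, jump g n / n) / Real.log N) atTop (𝓝 0)) :
    ∃ (δ : ℝ) (W : ℕ), 0 < δ ∧ ∀ᶠ N : ℕ in atTop, ∃ b ∈ Icc 1 W,
      ∃ (χ : DirichletCharacter ℂ b) (u : ℝ), |u| ≤ (N : ℝ) ^ 3 ∧
        δ ≤ mass (twistHom g χ) (Real.log N) u := by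
  obtain ⟨δ, W, hδ, hell⟩ := ErdosDisc.exists_elliott_le 1 (show (0 : ℝ) < 1 / 4 by norm_num)
  refine ⟨δ, W, hδ, ?_⟩
  filter_upwards [hell, h.eventually (ge_mem_nhds (show (0 : ℝ) < 1 / 4 by norm_num)),
    eventually_ge_atTop 2] with N hN hsum hN2
  by_contra hcon
  have hnp : NonPretentious g δ W N := fun b hb hbW χ u hu =>
    le_of_not_gt fun h => hcon ⟨b, mem_Icc.2 ⟨hb, hbW⟩, χ, u, hu, h.le⟩
  have hcorr := hN g hg hnp 1 le_rfl le_rfl
  have hlog : 0 < Real.log (N : ℝ) := Real.log_pos (Nat.one_lt_cast.2 (by omega))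
  have hjump : logMean N (jump g) ≤ 1 / 4 := by
    rw [div_le_iff₀ hlog] at hsum
    rw [LogChowla.logMean_eq, div_le_iff₀ (LogChowla.harm_pos (by omega))]
    simp only [inv_mul_eq_div]
    linarith [LogChowla.log_le_harm (show 1 ≤ N by omega)]
  have hre : 1 - logMean N (jump g) ≤ (corrMean g N 1).re := by
    rw [corrMean, Complex.re_sum, logMean,
      ← (LogChowla.isWeights_logW (show 1 ≤ N by omega)).sum_eq, ← sum_sub_distrib]
    refine sum_le_sum fun n hn => ?_
    rw [re_ofReal_mul, ← mul_one_sub]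
    refine mul_le_mul_of_nonneg_left ?_ (LogChowla.logW_nonneg N n)
    have hn0 : n ≠ 0 := by have := (mem_Icc.1 hn).1; omega
    have h1 : 1 - g n * starRingEnd ℂ (g (n + 1)) =
        (g (n + 1) - g n) * starRingEnd ℂ (g (n + 1)) := by
      rw [sub_mul, mul_conj', hg (n + 1) (Nat.succ_ne_zero n)]
      simp
    have h2 := (re_le_norm _).trans_eq (congrArg norm h1)
    rw [sub_re, one_re, norm_mul, Complex.norm_conj, hg (n + 1) (Nat.succ_ne_zero n), mul_one]
      at h2
    rw [jump]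
    linarith
  linarith [(re_le_norm (corrMean g N 1)).trans hcorr]

/-- **The height is bounded.** -/
theorem exists_bounded_height {g : ℕ →*₀ ℂ} (hg : ∀ n, n ≠ 0 → ‖g n‖ = 1)
    (h : Tendsto (fun N : ℕ => (∑ n ∈ Icc 1 N, jump g n / n) / Real.log N) atTop (𝓝 0)) :
    ∃ (δ : ℝ) (W : ℕ) (T : ℝ), 0 < δ ∧ ∀ᶠ N : ℕ in atTop, ∃ b ∈ Icc 1 W,
      ∃ (χ : DirichletCharacter ℂ b) (u : ℝ), |u| ≤ T ∧
        δ ≤ mass (twistHom g χ) (Real.log N) u := by
  obtain ⟨δ, W, hδ, hev⟩ := exists_pretentious_of_steady hg h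
  have hM := ErdosDisc.massConst_pos
  have hM1 : 1 ≤ massConst ^ 2 := one_le_pow₀ (by
    rw [massConst]
    linarith [Real.add_one_le_exp (2 * Halasz.sqConst),
      show (0 : ℝ) ≤ Halasz.sqConst from tsum_nonneg fun p => by positivity])
  obtain ⟨δ', hδ'⟩ : ∃ δ', δ' = δ / massConst ^ 2 := ⟨_, rfl⟩
  have hδ0 : 0 < δ' := hδ' ▸ by positivity
  have hlog : Tendsto (fun N : ℕ => Real.log N) atTop atTop :=
    Real.tendsto_log_atTop.comp tendsto_natCast_atTop_atTop
  obtain ⟨N₀, hN₀⟩ := eventually_atTop.1 (hev.and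
    ((hlog.eventually (eventually_pair_close W hδ0)).and
    ((hlog.eventually ErdosDisc.eventually_mass_mono).and ((hlog.eventually_ge_atTop 2).and
      ((((tendsto_rpow_atTop (show (0 : ℝ) < 1 / 15 by norm_num)).comp hlog).eventually_ge_atTop
        16).and (((tendsto_rpow_atTop (show (0 : ℝ) < 1 / 12 by norm_num)).comp
          hlog).eventually_ge_atTop 13))))))
  have hw : ∀ N, N₀ ≤ N → ∃ u : ℝ, |u| ≤ Real.exp (3 * Real.log N) ∧ ∃ b ∈ Icc 1 W,
      ∃ χ : DirichletCharacter ℂ b, δ ≤ mass (twistHom g χ) (Real.log N) u := fun N hN => by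
    obtain ⟨⟨b, hb, χ, u, hu, hm⟩, -, -, hL, -⟩ := hN₀ N hN
    refine ⟨u, hu.trans (le_of_eq ?_), b, hb, χ, hm⟩
    have hN0 : (0 : ℝ) < N := Nat.cast_pos.2 (Nat.pos_of_ne_zero fun e => by
      rw [e, Nat.cast_zero, Real.log_zero] at hL
      linarith)
    rw [show (3 : ℝ) * Real.log N = ((3 : ℕ) : ℝ) * Real.log N by norm_num, Real.exp_nat_mul,
      Real.exp_log hN0]
  choose! U hUb hU using hw
  have hclose : ∀ N M, N₀ ≤ M → M ≤ N → |U N - U M| ≤ Real.exp (Real.log M ^ (4 / 3 : ℝ)) →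
      |U N - U M| < 16 := fun N M hM0 hMN hd => by
    obtain ⟨-, hpair, hmono, hLM, -⟩ := hN₀ M hM0
    have hML : Real.log M ≤ Real.log N := Real.log_le_log (Nat.cast_pos.2 (Nat.pos_of_ne_zero
      fun e => by rw [e, Nat.cast_zero, Real.log_zero] at hLM; linarith)) (Nat.cast_le.2 hMN)
    obtain ⟨b, hb, χ, hm⟩ := hU N (hM0.trans hMN)
    obtain ⟨b', hb', χ', hm'⟩ := hU M hM0
    refine hpair g hg b hb b' hb' χ χ' _ _ ?_ ?_ hd
    · rw [hδ', div_le_iff₀' (by positivity)]
      exact hm.trans (hmono _ hML _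
        (ErdosDisc.norm_twistHom_le (ErdosDisc.norm_le_one_of_unimodular hg) _) _)
    · exact (hδ' ▸ div_le_self hδ.le hM1).trans hm'
  have hall : ∀ N, N₀ ≤ N → |U N - U N₀| < 16 := by
    intro N
    induction N using Nat.strong_induction_on with
    | _ N ih =>
      intro hN
      obtain ⟨-, -, -, hL2, hL16, -⟩ := hN₀ N hN
      obtain ⟨-, -, -, hL02, -, hL013⟩ := hN₀ N₀ le_rfl
      simp only [Function.comp_apply] at hL16 hL013
      obtain ⟨L, hL⟩ : ∃ L, L = Real.log (N : ℝ) := ⟨_, rfl⟩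
      obtain ⟨L₀, hL₀⟩ : ∃ L₀, L₀ = Real.log (N₀ : ℝ) := ⟨_, rfl⟩
      rw [← hL] at hL2 hL16
      rw [← hL₀] at hL02 hL013
      have hNpos : (0 : ℝ) < N := Nat.cast_pos.2 (Nat.pos_of_ne_zero fun e => by
        rw [hL, e, Nat.cast_zero, Real.log_zero] at hL2
        linarith)
      have hsum : ∀ x y : ℝ, 2 ≤ x → y ≤ x →
          Real.exp (3 * x) + Real.exp (3 * y) ≤ Real.exp (4 * x) := fun x y hx hy => by
        have h1 := Real.exp_le_exp.2 (show 3 * y ≤ 3 * x by linarith)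
        have h2 : 2 * Real.exp (3 * x) ≤ Real.exp x * Real.exp (3 * x) :=
          mul_le_mul_of_nonneg_right (by linarith [Real.add_one_le_exp x]) (Real.exp_pos _).le
        rw [← Real.exp_add, show x + 3 * x = 4 * x by ring] at h2
        linarith
      obtain ⟨M, hMdef⟩ : ∃ M, M = ⌊Real.exp (L ^ (4 / 5 : ℝ))⌋₊ := ⟨_, rfl⟩
      have hp : L ^ (4 / 5 : ℝ) < L := by
        nth_rewrite 2 [← Real.rpow_one L]
        exact Real.rpow_lt_rpow_of_exponent_lt (by linarith) (by norm_num)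
      have hpexp : L ^ (4 / 5 : ℝ) * L ^ (1 / 5 : ℝ) = L := by
        rw [← Real.rpow_add (by linarith)]
        norm_num
      have hMN : M < N := by
        rw [hMdef, Nat.floor_lt (Real.exp_pos _).le, ← Real.exp_log hNpos, ← hL]
        exact Real.exp_lt_exp.2 hp
      rcases lt_or_ge M N₀ with hMN₀ | hMN₀
      · refine hclose N N₀ le_rfl hN ((abs_sub _ _).trans
          ((add_le_add (hUb N hN) (hUb N₀ le_rfl)).trans ?_))
        rw [← hL, ← hL₀]
        have hN₀L : L₀ ≤ L := hL ▸ hL₀ ▸ Real.log_le_log (Nat.cast_pos.2 (Nat.pos_of_ne_zero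
          fun e => by rw [hL₀, e, Nat.cast_zero, Real.log_zero] at hL02; linarith))
          (Nat.cast_le.2 hN)
        refine (hsum L L₀ hL2 hN₀L).trans (Real.exp_le_exp.2 ?_)
        have h1 : L ^ (4 / 5 : ℝ) ≤ L₀ := by
          have h2 : Real.exp (L ^ (4 / 5 : ℝ)) < N₀ := by
            refine (Nat.lt_floor_add_one _).trans_le ?_
            rw [← hMdef]
            exact_mod_cast hMN₀
          rw [hL₀, Real.le_log_iff_exp_le (lt_trans (Real.exp_pos _) h2)]
          exact h2.le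
        have h2 : L ≤ L₀ ^ (5 / 4 : ℝ) := by
          refine le_of_eq_of_le ?_ (Real.rpow_le_rpow (Real.rpow_nonneg (by linarith) _) h1
            (by norm_num : (0 : ℝ) ≤ 5 / 4))
          rw [← Real.rpow_mul (by linarith)]
          norm_num
        have h3 : L₀ ^ (5 / 4 : ℝ) * L₀ ^ (1 / 12 : ℝ) = L₀ ^ (4 / 3 : ℝ) := by
          rw [← Real.rpow_add (by linarith)]
          norm_num
        nlinarith [mul_le_mul_of_nonneg_left hL013 (show 0 ≤ L₀ ^ (5 / 4 : ℝ) by positivity)]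
      · obtain ⟨-, -, -, hLM2, -⟩ := hN₀ M hMN₀
        obtain ⟨ℓ, hℓ⟩ : ∃ ℓ, ℓ = Real.log (M : ℝ) := ⟨_, rfl⟩
        rw [← hℓ] at hLM2
        have hMpos : (0 : ℝ) < M := Nat.cast_pos.2 (Nat.pos_of_ne_zero fun e => by
          rw [hℓ, e, Nat.cast_zero, Real.log_zero] at hLM2
          linarith)
        have hℓle : ℓ ≤ L ^ (4 / 5 : ℝ) := by
          rw [hℓ, Real.log_le_iff_le_exp hMpos, hMdef]
          exact Nat.floor_le (Real.exp_pos _).le
        have hℓge : L ^ (4 / 5 : ℝ) / 2 ≤ ℓ := by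
          have h1 : Real.exp (L ^ (4 / 5 : ℝ)) < M + 1 := hMdef ▸ Nat.lt_floor_add_one _
          have h2 : L ^ (4 / 5 : ℝ) ≤ Real.log (M + 1) := by
            rw [Real.le_log_iff_exp_le (by positivity)]
            exact h1.le
          have h3 : Real.log (M + 1) ≤ Real.log 2 + ℓ := by
            rw [hℓ, ← Real.log_mul two_ne_zero hMpos.ne']
            refine Real.log_le_log (by positivity) ?_
            have : (1 : ℝ) ≤ M := Nat.one_le_cast.2 (Nat.cast_pos.1 hMpos)
            linarith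
          linarith [Real.log_two_lt_d9]
        have h16 : 4 * L ≤ ℓ ^ (4 / 3 : ℝ) := by
          refine le_trans ?_ (Real.rpow_le_rpow (by positivity) hℓge
            (by norm_num : (0 : ℝ) ≤ 4 / 3))
          rw [Real.div_rpow (by positivity) two_pos.le, ← Real.rpow_mul (by linarith),
            show (4 / 5 : ℝ) * (4 / 3) = 1 + 1 / 15 by norm_num, Real.rpow_add (by linarith),
            Real.rpow_one, le_div_iff₀ (by positivity)]
          have h4 : (2 : ℝ) ^ (4 / 3 : ℝ) ≤ 4 := by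
            refine (Real.rpow_le_rpow_of_exponent_le one_le_two
              (show (4 / 3 : ℝ) ≤ (2 : ℕ) by norm_num)).trans_eq ?_
            rw [Real.rpow_natCast]
            norm_num
          calc 4 * L * (2 : ℝ) ^ (4 / 3 : ℝ) ≤ 4 * L * 4 :=
                mul_le_mul_of_nonneg_left h4 (by linarith)
            _ = L * 16 := by ring
            _ ≤ _ := mul_le_mul_of_nonneg_left hL16 (by linarith)
        have h1 := hclose N M hMN₀ hMN.le ((abs_sub _ _).trans
          ((add_le_add (hUb N hN) (hUb M hMN₀)).trans (by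
            rw [← hL, ← hℓ]
            exact (hsum L ℓ hL2 (hℓle.trans hp.le)).trans (Real.exp_le_exp.2 h16))))
        have h2 := ih M hMN hMN₀
        refine hclose N N₀ le_rfl hN ((abs_sub_le _ (U M) _).trans ?_)
        rw [← hL₀]
        have h3 : 4 * (2 : ℝ) ≤ L₀ ^ (4 / 3 : ℝ) := by
          rw [show (4 / 3 : ℝ) = 1 + 1 / 3 by norm_num, Real.rpow_add (by linarith), Real.rpow_one]
          have h5 : (13 : ℝ) ≤ L₀ ^ (1 / 3 : ℝ) := hL013.trans
            (Real.rpow_le_rpow_of_exponent_le (by linarith) (by norm_num))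
          calc (4 : ℝ) * 2 ≤ 2 * 13 := by norm_num
            _ ≤ _ := mul_le_mul hL02 h5 (by norm_num) (by linarith)
        have h4 : (32 : ℝ) ≤ Real.exp (4 * 2) := by
          rw [show (4 : ℝ) * 2 = ((4 : ℕ) : ℝ) * 2 by norm_num, Real.exp_nat_mul]
          have : (2.5 : ℝ) ≤ Real.exp 2 := by linarith [Real.add_one_le_exp (2 : ℝ)]
          exact le_trans (by norm_num) (pow_le_pow_left₀ (by norm_num) this 4)
        have h5 : (32 : ℝ) ≤ Real.exp (L₀ ^ (4 / 3 : ℝ)) := h4.trans (Real.exp_le_exp.2 h3)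
        linarith
  refine ⟨δ, W, |U N₀| + 16, hδ, eventually_atTop.2 ⟨N₀, fun N hN => ?_⟩⟩
  obtain ⟨b, hb, χ, hm⟩ := hU N hN
  refine ⟨b, hb, χ, U N, ?_, hm⟩
  linarith [abs_sub_abs_le_abs_sub (U N) (U N₀), hall N hN]

end FA.Klurman

end
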