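import Fermat.Agent.Klurman.Signs
import Mathlib.Data.Nat.Totient
import Mathlib.NumberTheory.LSeries.Convolution

/-!
# From finitely many deviant primes to periodicity

The extremal values of the partial sums force them to vanish at the multiples of some `Q` and the
sequence to be constant there, hence a function of the greatest common divisor with `Q`. Its sum
over a period is a product over the primes, whose only factor that may vanish is that of `2`.
-/

set_option autoImplicit false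

noncomputable section

namespace FA.Klurman

open Finset

variable {f : ℕ → ℤ}

/-- A unit of the rough numbers moves past any argument. -/
theorem cast_mul_rough (hf : SignFun f) {q : ℕ} (χ : DirichletCharacter ℂ q) {Y : ℕ}
    (hY : ∀ p : ℕ, p.Prime → Y < p → ∀ k : ℕ, (f (p ^ k) : ℂ) = χ p ^ k) :
    ∀ u : ℕ, u ≠ 0 → (∀ p : ℕ, p.Prime → p ∣ u → Y < p) → ∀ i : ℕ, i ≠ 0 →
      (f (i * u) : ℂ) = f i * χ u := by
  intro u
  induction u using induction_on_primes with
  | zero => exact fun h => absurd rfl h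
  | one => simp
  | prime_mul p a hp ih =>
    intro hpa hrough i hi
    obtain ⟨ha, hpY⟩ : a ≠ 0 ∧ Y < p := ⟨right_ne_zero_of_mul hpa, hrough p hp (dvd_mul_right p a)⟩
    obtain ⟨k, m, hpm, rfl⟩ := Nat.exists_eq_pow_mul_and_not_dvd hi p hp.ne_one
    have hcop : ∀ j : ℕ, Nat.Coprime (p ^ j) m := fun j =>
      (hp.coprime_iff_not_dvd.2 hpm).pow_left j
    rw [show p ^ k * m * (p * a) = p ^ (k + 1) * m * a by ring,
      ih ha (fun l hl h => hrough l hl (dvd_mul_of_dvd_right h p)) _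
        (mul_ne_zero (pow_ne_zero _ hp.ne_zero) (right_ne_zero_of_mul hi)),
      hf.mul _ _ (hcop _), hf.mul _ _ (hcop _), Int.cast_mul, Int.cast_mul, hY p hp hpY,
      hY p hp hpY, Nat.cast_mul, map_mul, pow_succ]
    ring

theorem exists_extremal {C : ℤ} (hC : ∀ N, |psum f N| ≤ C) :
    ∃ x y : ℕ, ∀ N, psum f N ≤ psum f x ∧ psum f y ≤ psum f N := by
  classical
  obtain ⟨M, ⟨x, rfl⟩, hM⟩ := Int.exists_greatest_of_bdd (P := fun z => ∃ N, psum f N = z)
    ⟨C, fun z ⟨N, h⟩ => h ▸ (abs_le.1 (hC N)).2⟩ ⟨_, 0, rfl⟩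
  obtain ⟨m, ⟨y, rfl⟩, hm⟩ := Int.exists_least_of_bdd (P := fun z => ∃ N, psum f N = z)
    ⟨-C, fun z ⟨N, h⟩ => h ▸ (abs_le.1 (hC N)).1⟩ ⟨_, 0, rfl⟩
  exact ⟨x, y, fun N => ⟨hM _ ⟨N, rfl⟩, hm _ ⟨N, rfl⟩⟩⟩

/-- **The extremal argument.** -/
theorem exists_stable (hf : SignFun f) {C : ℤ} (hC : ∀ N, |psum f N| ≤ C) {q : ℕ} [NeZero q]
    (χ : DirichletCharacter ℂ q) {Y : ℕ}
    (hY : ∀ p : ℕ, p.Prime → Y < p → ∀ k : ℕ, (f (p ^ k) : ℂ) = χ p ^ k) :
    ∃ Q : ℕ, 0 < Q ∧ psum f Q = 0 ∧ ∀ t : ℕ, 0 < t → f (Q * t) = f Q := by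
  obtain ⟨x, y, hxy⟩ := exists_extremal hC
  obtain ⟨X, hX⟩ : ∃ X, X = x + y + 1 := ⟨_, rfl⟩
  obtain ⟨R, hR⟩ : ∃ R, R = q * Y.factorial := ⟨_, rfl⟩
  have hR0 : 0 < R := hR ▸ Nat.mul_pos (NeZero.pos q) Y.factorial_pos
  obtain ⟨Q, hQ⟩ : ∃ Q, Q = 2 * X.factorial * R := ⟨_, rfl⟩
  have hQ0 : 0 < Q := hQ ▸ Nat.mul_pos (Nat.mul_pos two_pos X.factorial_pos) hR0
  obtain ⟨s, hs, hsc⟩ : ∃ s : ℤ, (s = 1 ∨ s = -1) ∧ χ (-1) = (s : ℂ) := by
    have h1 : χ (-1) * χ (-1) = 1 := by rw [← map_mul, neg_one_mul, neg_neg, map_one]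
    rcases mul_self_eq_one_iff.1 h1 with h | h
    · exact ⟨1, Or.inl rfl, by simpa using h⟩
    · exact ⟨-1, Or.inr rfl, by simpa using h⟩
  have hplus : ∀ t i : ℕ, i ∈ Icc 1 X → f (Q * t + i) = f i := fun t i hi => by
    rw [mem_Icc] at hi
    obtain ⟨e, he⟩ := Nat.dvd_factorial hi.1 hi.2
    have h1 : Q * t + i = i * (R * (2 * e * t) + 1) := by rw [hQ, he]; ring
    have h2 := cast_mul_rough hf χ hY (R * (2 * e * t) + 1) (Nat.succ_ne_zero _) (fun p hp hd => by
      by_contra! hpY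
      refine hp.not_dvd_one ((Nat.dvd_add_right ?_).1 hd)
      exact dvd_mul_of_dvd_left (hR ▸ dvd_mul_of_dvd_right (hp.dvd_factorial.2 hpY) q) _) i
        (by omega)
    rw [← h1] at h2
    rw [← Int.cast_inj (α := ℂ), h2, hR]
    simp
  have hminus : ∀ t i : ℕ, 0 < t → i ∈ Icc 1 X → f (Q * t - i) = s * f i := fun t i ht hi => by
    rw [mem_Icc] at hi
    obtain ⟨e, he⟩ := Nat.dvd_factorial hi.1 hi.2
    have he0 : 0 < e := Nat.pos_of_ne_zero fun h0 => by
      have := X.factorial_pos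
      rw [he, h0, mul_zero] at this
      exact lt_irrefl _ this
    obtain ⟨u, hu⟩ : ∃ u, R * (2 * e * t) = u + 1 :=
      ⟨R * (2 * e * t) - 1, (Nat.sub_add_cancel (Nat.mul_pos hR0 (by positivity))).symm⟩
    have hu0 : u ≠ 0 := by
      rintro rfl
      have := (mul_eq_one.1 hu).2
      rw [mul_assoc] at this
      exact absurd (mul_eq_one.1 this).1 (by norm_num)
    have h1 : Q * t - i = i * u := by
      have : Q * t = i * u + i := by
        rw [← Nat.mul_add_one, ← hu, hQ, he]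
        ring
      omega
    have h2 := cast_mul_rough hf χ hY u hu0 (fun p hp hd => by
      by_contra! hpY
      refine hp.not_dvd_one ((Nat.dvd_add_right hd).1 (hu ▸ ?_))
      exact dvd_mul_of_dvd_left (hR ▸ dvd_mul_of_dvd_right (hp.dvd_factorial.2 hpY) q) _) i
        (by omega)
    have h3 : ((u : ℕ) : ZMod q) = -1 := by
      have := congrArg (fun n : ℕ => (n : ZMod q)) hu
      simp only [hR, Nat.cast_mul, ZMod.natCast_self, zero_mul, Nat.cast_add, Nat.cast_one] at this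
      exact eq_neg_of_add_eq_zero_left this.symm
    rw [← h1, h3, hsc] at h2
    rw [← Int.cast_inj (α := ℂ), h2, Int.cast_mul, mul_comm]
  have hzero : ∀ t, psum f (Q * t) = 0 := fun t => by
    have h : ∀ z, z ≤ X → psum f (Q * t + z) = psum f (Q * t) + psum f z := fun z hz => by
      rw [psum_add, psum.eq_def f z]
      exact congrArg _ (sum_congr rfl fun i hi =>
        hplus t i (mem_Icc.2 ⟨(mem_Icc.1 hi).1, (mem_Icc.1 hi).2.trans hz⟩))
    have h1 := (hxy (Q * t + x)).1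
    have h2 := (hxy (Q * t + y)).2
    rw [h x (by omega)] at h1
    rw [h y (by omega)] at h2
    linarith
  have hback : ∀ t z : ℕ, 0 < t → z + 1 ≤ X →
      psum f (Q * t - (z + 1)) = -f (Q * t) - s * psum f z := fun t z ht hz => by
    have hle : z + 1 ≤ Q * t := by
      refine hz.trans (le_trans ?_ (Nat.le_mul_of_pos_right Q ht))
      rw [hQ]
      exact le_trans X.self_le_factorial (le_trans (Nat.le_mul_of_pos_left _ two_pos)
        (Nat.le_mul_of_pos_right _ hR0))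
    obtain ⟨B, hB⟩ : ∃ B, Q * t = B + (z + 1) := ⟨Q * t - (z + 1), by omega⟩
    have h := psum_add f B (z + 1)
    rw [← hB, hzero, sum_Icc_succ_top (by omega), ← hB] at h
    have e : ∑ i ∈ Icc 1 z, f (B + i) = s * psum f z := by
      rw [psum, mul_sum]
      refine sum_nbij' (fun i => z + 1 - i) (fun i => z + 1 - i)
        (fun i hi => mem_Icc.2 (by simp only [mem_Icc] at hi; omega))
        (fun i hi => mem_Icc.2 (by simp only [mem_Icc] at hi; omega))
        (fun i hi => by simp only [mem_Icc] at hi; omega)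
        (fun i hi => by simp only [mem_Icc] at hi; omega) fun i hi => ?_
      rw [mem_Icc] at hi
      rw [← hminus t _ ht (mem_Icc.2 ⟨by omega, by omega⟩)]
      congr 1
      omega
    rw [e] at h
    rw [show Q * t - (z + 1) = B by omega]
    linarith
  refine ⟨Q, hQ0, by simpa using hzero 1, fun t ht => ?_⟩
  have key : ∀ t, 0 < t → f (Q * t) = -(psum f x + psum f y) := fun t ht => by
    have h1 := hback t x ht (by omega)
    have h2 := hback t y ht (by omega)
    have b1 := hxy (Q * t - (x + 1))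
    have b2 := hxy (Q * t - (y + 1))
    rcases hs with rfl | rfl
    · omega
    · rcases hf.sign (Q * t) (Nat.mul_ne_zero hQ0.ne' ht.ne') with e | e <;> omega
  rw [key t ht, ← key 1 one_pos, mul_one]

/-- Constancy on the multiples of `Q` makes `f` a function of `gcd (·, Q)`. -/
theorem eq_gcd_of_stable (hf : SignFun f) {Q : ℕ} (hQ : 0 < Q)
    (h : ∀ t : ℕ, 0 < t → f (Q * t) = f Q) : ∀ n : ℕ, n ≠ 0 → f n = f (Nat.gcd n Q) := by
  intro n
  induction n using Nat.recOnPosPrimePosCoprime with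
  | zero => exact fun h => absurd rfl h
  | one => simp
  | coprime a b ha hb hab iha ihb =>
    intro _
    rw [hf.mul a b hab, iha (by omega), ihb (by omega), Nat.gcd_comm (a * b),
      Nat.Coprime.gcd_mul Q hab, hf.mul _ _ ?_, Nat.gcd_comm a, Nat.gcd_comm b]
    exact (hab.coprime_dvd_left (Nat.gcd_dvd_right Q a)).coprime_dvd_right (Nat.gcd_dvd_right Q b)
  | prime_pow p k hp _ =>
    intro _
    obtain ⟨K, R, hpR, rfl⟩ := Nat.exists_eq_pow_mul_and_not_dvd hQ.ne' p hp.ne_one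
    have hcop : ∀ j : ℕ, Nat.Coprime (p ^ j) R := fun j =>
      (hp.coprime_iff_not_dvd.2 hpR).pow_left j
    rcases le_or_gt k K with hk | hk
    · rw [Nat.gcd_eq_left (dvd_mul_of_dvd_left (pow_dvd_pow p hk) R)]
    have e : Nat.gcd (p ^ k) (p ^ K * R) = p ^ K := by
      rw [(hcop K).gcd_mul, Nat.gcd_eq_right (pow_dvd_pow p hk.le),
        Nat.Coprime.gcd_eq_one (hcop k), mul_one]
    have h1 := h (p ^ (k - K)) (pow_pos hp.pos _)
    rw [mul_right_comm, ← pow_add, Nat.add_sub_cancel' hk.le, hf.mul _ _ (hcop k),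
      hf.mul _ _ (hcop K)] at h1
    rw [e]
    exact mul_right_cancel₀ (fun h0 => by
      rcases hf.sign R (fun hR => by rw [hR, mul_zero] at hQ; omega) with e' | e' <;> omega) h1

theorem periodic_of_stable (hf : SignFun f) {Q : ℕ} (hQ : 0 < Q)
    (h : ∀ t : ℕ, 0 < t → f (Q * t) = f Q) {n : ℕ} (hn : 1 ≤ n) : f (n + Q) = f n := by
  rw [eq_gcd_of_stable hf hQ h n (by omega), eq_gcd_of_stable hf hQ h (n + Q) (by omega),
    Nat.gcd_add_self_left]

theorem stable_of_periodic {Q : ℕ} (hQ : 0 < Q) (h : ∀ n, 1 ≤ n → f (n + Q) = f n) :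
    ∀ t : ℕ, 0 < t → f (Q * t) = f Q := by
  intro t ht
  induction t, ht using Nat.le_induction with
  | base => exact congrArg f (Nat.mul_one Q)
  | succ t ht ih => rw [Nat.mul_succ, h _ (Nat.mul_pos hQ ht), ih]

theorem psum_add_period {Q : ℕ} (h : ∀ n, 1 ≤ n → f (n + Q) = f n) (h0 : psum f Q = 0) (N : ℕ) :
    psum f (N + Q) = psum f N := by
  rw [Nat.add_comm, psum_add, h0, zero_add]
  exact sum_congr rfl fun i hi => by rw [Nat.add_comm]; exact h i (mem_Icc.1 hi).1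

theorem abs_psum_le_of_periodic (hf : SignFun f) {Q : ℕ} (hQ : 0 < Q)
    (h : ∀ n, 1 ≤ n → f (n + Q) = f n) (h0 : psum f Q = 0) (N : ℕ) : |psum f N| ≤ Q := by
  induction N using Nat.strong_induction_on with
  | _ N ih =>
    rcases lt_or_ge N Q with hN | hN
    · refine (abs_sum_le_sum_abs _ _).trans ((sum_le_card_nsmul _ _ 1 fun i hi => ?_).trans ?_)
      · rcases hf.sign i (by have := (mem_Icc.1 hi).1; omega) with e | e <;> simp [e]
      · simp only [Nat.card_Icc, Nat.add_sub_cancel, nsmul_one]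
        exact_mod_cast hN.le
    · obtain ⟨M, rfl⟩ : ∃ M, N = M + Q := ⟨N - Q, by omega⟩
      rw [psum_add_period h h0]
      exact ih M (by omega)

/-- The local factor. -/
def periodFactor (f : ℕ → ℤ) (p K : ℕ) : ℤ :=
  ∑ j ∈ range (K + 1), f (p ^ j) * (Nat.totient (p ^ (K - j)) : ℤ)

theorem periodFactor_eq_zero_iff (hf : SignFun f) {p K : ℕ} (hp : p.Prime) (hK : 0 < K) :
    periodFactor f p K = 0 ↔ p = 2 ∧ ∀ j, 1 ≤ j → j ≤ K → f (p ^ j) = -1 := by
  obtain ⟨K, rfl⟩ : ∃ L, K = L + 1 := ⟨K - 1, by omega⟩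
  have hsum : ∀ L : ℕ, ∑ j ∈ range (L + 1), (Nat.totient (p ^ (L - j)) : ℤ) = ((p ^ L : ℕ) : ℤ) :=
    fun L => by
    rw [← Nat.cast_sum, Nat.cast_inj]
    conv_rhs => rw [← Nat.sum_totient (p ^ L), Nat.sum_divisors_prime_pow hp]
    rw [← sum_range_reflect]
    exact sum_congr rfl fun j hj => by rw [mem_range] at hj; congr 2; omega
  have hφ : ((p ^ (K + 1)).totient : ℤ) = (p : ℤ) ^ K * ((p : ℤ) - 1) := by
    rw [Nat.totient_prime_pow_succ hp]
    push_cast [hp.one_le]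
    ring
  have hdiff : periodFactor f p (K + 1) = (p : ℤ) ^ K * ((p : ℤ) - 2) +
      ∑ j ∈ range (K + 1), (1 + f (p ^ (j + 1))) * ((p ^ (K - j)).totient : ℤ) := by
    rw [periodFactor, sum_range_succ', pow_zero, hf.map_one', one_mul, Nat.sub_zero, hφ]
    simp only [Nat.add_sub_add_right, add_mul, one_mul, sum_add_distrib, hsum K]
    push_cast
    ring
  have hnn : ∀ j ∈ range (K + 1), 0 ≤ (1 + f (p ^ (j + 1))) * ((p ^ (K - j)).totient : ℤ) :=
    fun j _ => mul_nonneg (by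
      rcases hf.sign (p ^ (j + 1)) (pow_ne_zero _ hp.ne_zero) with e | e <;> omega)
      (Nat.cast_nonneg _)
  have hp2 : (0 : ℤ) ≤ (p : ℤ) - 2 := by have := hp.two_le; omega
  rw [hdiff, add_eq_zero_iff_of_nonneg (mul_nonneg (by positivity) hp2) (sum_nonneg hnn),
    sum_eq_zero_iff_of_nonneg hnn, mul_eq_zero]
  refine and_congr ⟨fun h => ?_, fun h => Or.inr (by omega)⟩
    ⟨fun h j hj hjK => ?_, fun h j hj => ?_⟩
  · rcases h with h | h
    · exact absurd h (pow_ne_zero _ (Int.natCast_ne_zero.2 hp.ne_zero))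
    · omega
  · have h1 := h (j - 1) (mem_range.2 (by omega))
    rw [Nat.sub_add_cancel hj, mul_eq_zero] at h1
    rcases h1 with h1 | h1
    · omega
    · exact absurd h1 (Int.natCast_ne_zero.2 (Nat.totient_pos.2 (pow_pos hp.pos _)).ne')
  · rw [h (j + 1) (by omega) (by rw [mem_range] at hj; omega)]
    simp

open ArithmeticFunction in
theorem psum_eq_prod (hf : SignFun f) {Q : ℕ} (hQ : 0 < Q)
    (h : ∀ n : ℕ, n ≠ 0 → f n = f (Nat.gcd n Q)) :
    psum f Q = ∏ p ∈ Q.primeFactors, periodFactor f p (Q.factorization p) := by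
  obtain ⟨A, hA⟩ : ∃ A : ArithmeticFunction ℤ, A = toArithmeticFunction f := ⟨_, rfl⟩
  obtain ⟨B, hB⟩ : ∃ B : ArithmeticFunction ℤ, B = toArithmeticFunction fun n => (n.totient : ℤ) :=
    ⟨_, rfl⟩
  have hAapp : ∀ {n : ℕ}, n ≠ 0 → A n = f n := fun {n} hn => hA ▸ if_neg hn
  have hBapp : ∀ {n : ℕ}, n ≠ 0 → B n = (n.totient : ℤ) := fun {n} hn => hB ▸ if_neg hn
  have hAm : A.IsMultiplicative := IsMultiplicative.iff_ne_zero.2 ⟨by
    rw [hAapp one_ne_zero, hf.map_one'], fun {m n} hm hn hc => by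
    rw [hAapp (mul_ne_zero hm hn), hAapp hm, hAapp hn, hf.mul m n hc]⟩
  have hBm : B.IsMultiplicative := IsMultiplicative.iff_ne_zero.2 ⟨by
    rw [hBapp one_ne_zero, Nat.totient_one, Nat.cast_one], fun {m n} hm hn hc => by
    rw [hBapp (mul_ne_zero hm hn), hBapp hm, hBapp hn, Nat.totient_mul hc, Nat.cast_mul]⟩
  have hconv : ∀ n : ℕ, n ≠ 0 →
      (A * B) n = ∑ d ∈ n.divisors, f d * ((n / d).totient : ℤ) := fun n hn => by
    rw [mul_apply, Nat.sum_divisorsAntidiagonal fun a b => A a * B b]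
    refine sum_congr rfl fun d hd => ?_
    obtain ⟨hdn, -⟩ := Nat.mem_divisors.1 hd
    rw [hAapp fun e => hn (by simpa [e] using hdn),
      hBapp (Nat.div_ne_zero_iff_of_dvd hdn |>.2 ⟨hn, fun e => hn (by simpa [e] using hdn)⟩)]
  have e1 : psum f Q = ∑ k ∈ range Q, f (Nat.gcd Q k) := by
    refine sum_nbij' (fun n => n % Q) (fun k => if k = 0 then Q else k)
      (fun n _ => mem_range.2 (Nat.mod_lt _ hQ))
      (fun k hk => ?_) (fun n hn => ?_) (fun k hk => ?_) fun n hn => ?_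
    · rw [mem_range] at hk
      split_ifs <;> exact mem_Icc.2 (by omega)
    · obtain ⟨h1, h2⟩ := mem_Icc.1 hn
      rcases h2.eq_or_lt with rfl | h3
      · simp
      · simp only [Nat.mod_eq_of_lt h3]
        rw [if_neg (by omega)]
    · rw [mem_range] at hk
      rcases eq_or_ne k 0 with rfl | hk0
      · simp
      · simp only [if_neg hk0, Nat.mod_eq_of_lt hk]
    · obtain ⟨h1, -⟩ := mem_Icc.1 hn
      rw [h n (by omega), Nat.gcd_comm n, Nat.gcd_rec Q n, Nat.gcd_comm]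
  have e2 : ∑ k ∈ range Q, f (Nat.gcd Q k) = (A * B) Q := by
    rw [hconv Q hQ.ne', ← sum_fiberwise_of_maps_to (t := Q.divisors) (g := fun k => Nat.gcd Q k)
      fun k _ => Nat.mem_divisors.2 ⟨Nat.gcd_dvd_left Q k, hQ.ne'⟩]
    refine sum_congr rfl fun d hd => ?_
    rw [Nat.totient_div_of_dvd (Nat.mem_divisors.1 hd).1]
    rw [sum_congr rfl fun k hk => by rw [(mem_filter.1 hk).2], sum_const, nsmul_eq_mul, mul_comm]
  rw [e1, e2, (hAm.mul hBm).multiplicative_factorization _ hQ.ne', Finsupp.prod,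
    Nat.support_factorization]
  refine prod_congr rfl fun p hp => ?_
  have hp' := Nat.prime_of_mem_primeFactors hp
  rw [hconv _ (pow_ne_zero _ hp'.ne_zero), Nat.sum_divisors_prime_pow hp', periodFactor]
  refine sum_congr rfl fun j hj => ?_
  rw [mem_range] at hj
  rw [Nat.pow_div (by omega) hp'.pos]

/-- A period of sum zero is the same as `f (2 ^ k) = -1`. -/
theorem psum_period_eq_zero_iff (hf : SignFun f) {Q : ℕ} (hQ : 0 < Q)
    (h : ∀ n, 1 ≤ n → f (n + Q) = f n) :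
    psum f Q = 0 ↔ ∀ k : ℕ, 1 ≤ k → f (2 ^ k) = -1 := by
  have hg := eq_gcd_of_stable hf hQ (stable_of_periodic hQ h)
  rw [psum_eq_prod hf hQ hg, prod_eq_zero_iff]
  constructor
  · rintro ⟨p, hp, h0⟩ k hk
    have hp' := Nat.prime_of_mem_primeFactors hp
    have hK := hp'.factorization_pos_of_dvd hQ.ne' (Nat.dvd_of_mem_primeFactors hp)
    obtain ⟨rfl, hall⟩ := (periodFactor_eq_zero_iff hf hp' hK).1 h0
    obtain ⟨j, hj, hgcd⟩ := (Nat.dvd_prime_pow hp').1 (Nat.gcd_dvd_left (2 ^ k) Q)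
    rw [hg _ (pow_ne_zero _ two_ne_zero), hgcd]
    refine hall j ?_ ?_
    · by_contra! h1
      obtain rfl : j = 0 := by omega
      have h2 : 2 ∣ Nat.gcd (2 ^ k) Q :=
        Nat.dvd_gcd (dvd_pow_self 2 (by omega)) (Nat.dvd_of_mem_primeFactors hp)
      rw [hgcd] at h2
      norm_num at h2
    · refine (hp'.pow_dvd_iff_le_factorization hQ.ne').1 (hgcd ▸ Nat.gcd_dvd_right _ _)
  · intro h2
    have hdvd : 2 ∣ Q := by
      by_contra hd
      have e := hg (2 ^ 1) (by norm_num)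
      rw [Nat.Coprime.gcd_eq_one ((Nat.prime_two.coprime_iff_not_dvd.2 hd).pow_left 1),
        hf.map_one', h2 1 le_rfl] at e
      norm_num at e
    exact ⟨2, Nat.mem_primeFactors.2 ⟨Nat.prime_two, hdvd, hQ.ne'⟩,
      (periodFactor_eq_zero_iff hf Nat.prime_two
        (Nat.prime_two.factorization_pos_of_dvd hQ.ne' hdvd)).2 ⟨rfl, fun j hj _ => h2 j hj⟩⟩

/-- **Bounded sums near a character force periodicity.** -/
theorem exists_period_of_summable (hf : SignFun f) {C : ℤ} (hC : ∀ N, |psum f N| ≤ C) {q : ℕ}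
    [NeZero q] (χ : DirichletCharacter ℂ q) (hχ : χ ^ 2 = 1)
    (hS : Summable ({p : ℕ | p.Prime ∧ (f p : ℂ) ≠ χ p}.indicator fun p : ℕ => 1 / (p : ℝ))) :
    ∃ Q : ℕ, 0 < Q ∧ psum f Q = 0 ∧ ∀ n, 1 ≤ n → f (n + Q) = f n := by
  obtain ⟨Y, hY⟩ := exists_eventually_eq_char hf hC χ hχ hS
  obtain ⟨Q, hQ, h0, hst⟩ := exists_stable hf hC χ hY
  exact ⟨Q, hQ, h0, fun n hn => periodic_of_stable hf hQ hst hn⟩

end FA.Klurman

end
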