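import Fermat.Agent.ErdosDiscrepancy.Main
import Fermat.Agent.Klurman.Correlation

/-!
# Bounded sums make a multiplicative sequence of signs pretentious

By the two-point theorem `f χ` pretends to be `n ^ (iu)` at every large scale, for bounded
modulus. Squaring shows that `χ` is real and `u` bounded, so along a subsequence `χ` is constant
and `u` converges, necessarily to `0`.
-/

set_option autoImplicit false

noncomputable section

namespace FA.Klurman

open Finset Filter Complex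
open FA.Halasz (dev dev_nonneg)
open FA.ErdosDisc (mass gap massConst twistHom charHom NonPretentious corrMean)
open scoped Topology ComplexConjugate

variable {f : ℕ → ℤ}

theorem norm_primeHom_le (hf : SignFun f) : ∀ n, ‖primeHom f n‖ ≤ 1 :=
  ErdosDisc.norm_le_one_of_unimodular fun _ hn => norm_primeHom hf hn

/-- At every large scale some `f χ` is pretentious. -/
theorem exists_pretentious (hf : SignFun f) {C : ℤ} (hC : ∀ N, |psum f N| ≤ C) :
    ∃ (δ : ℝ) (W : ℕ), 0 < δ ∧ ∀ᶠ N : ℕ in atTop, ∃ b ∈ Icc 1 W,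
      ∃ (χ : DirichletCharacter ℂ b) (u : ℝ), |u| ≤ (N : ℝ) ^ 3 ∧
        δ ≤ mass (twistHom (primeHom f) χ) (Real.log N) u := by
  obtain ⟨H, hH⟩ := exists_nat_gt (8 * (C : ℝ) ^ 2)
  have hH0 : (0 : ℝ) < H := lt_of_le_of_lt (by positivity) hH
  obtain ⟨δ, W, hδ, hcorr⟩ := exists_corr_le hf H (show 0 < 1 / (4 * (H : ℝ)) by positivity)
  refine ⟨δ, W, hδ, ?_⟩
  filter_upwards [hcorr, LogChowla.eventually_div_harm_le (3 * (H : ℝ))
    (show 0 < 1 / (4 * (H : ℝ)) by positivity), eventually_ge_atTop 1] with N hN hNerr hN1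
  by_contra hcon
  have hnp : NonPretentious (primeHom f) δ W N := fun b hb hbW χ u hu =>
    le_of_not_gt fun h => hcon ⟨b, mem_Icc.2 ⟨hb, hbW⟩, χ, u, hu, h.le⟩
  have h1 := ErdosDisc.logMean_window_ge (norm_cast0_le hf) (fun n hn => norm_cast0 hf hn) hN1
    (by positivity) (hN hnp)
  have hwin : ∀ n : ℕ, ‖∑ j ∈ Ioc n (n + H), cast0 f j‖ ^ 2 ≤ 4 * (C : ℝ) ^ 2 := fun n => by
    have e : ∑ j ∈ Ioc n (n + H), cast0 f j = ((psum f (n + H) - psum f n : ℤ) : ℂ) := by
      rw [psum, psum, ← zero_add 1, Finset.Icc_add_one_left_eq_Ioc,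
        Finset.Icc_add_one_left_eq_Ioc, ← sum_Ioc_consecutive f (Nat.zero_le n)
          (Nat.le_add_right n H), add_sub_cancel_left, Int.cast_sum]
      exact sum_congr rfl fun j hj => if_neg (by have := (mem_Ioc.1 hj).1; omega)
    rw [e, Complex.norm_intCast, sq_abs]
    have h1 := abs_le.1 (hC (n + H))
    have h2 := abs_le.1 (hC n)
    have h3 : ((psum f (n + H) - psum f n : ℤ) : ℝ) ≤ 2 * C ∧
        -(2 * (C : ℝ)) ≤ ((psum f (n + H) - psum f n : ℤ) : ℝ) := by
      constructor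
      · exact_mod_cast (show psum f (n + H) - psum f n ≤ 2 * C by linarith)
      · exact_mod_cast (show -(2 * C) ≤ psum f (n + H) - psum f n by linarith)
    nlinarith [h3.1, h3.2]
  have h2 := h1.trans (LogChowla.logMean_le_const hN1 fun n _ => hwin n)
  have h3 : (H : ℝ) ^ 2 * (1 / (4 * H) + 3 * H / LogChowla.harm N) ≤ H / 2 := by
    refine (mul_le_mul_of_nonneg_left (add_le_add le_rfl hNerr) (sq_nonneg _)).trans (le_of_eq ?_)
    field_simp
    ring
  linarith

/-- Squaring `f χ` leaves `χ ^ 2`. -/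
theorem gap_charHom_sq_le (hf : SignFun f) {q : ℕ} (χ : DirichletCharacter ℂ q) {L : ℝ}
    (hL : 0 < L) (t : ℝ) :
    gap (charHom (χ ^ 2)) L (2 * t) ≤ 4 * gap (twistHom (primeHom f) χ) L t := by
  have ha := ErdosDisc.norm_twistHom_le (norm_primeHom_le hf) χ
  refine hasSum_le (fun p => ?_) (ErdosDisc.hasSum_gap (ErdosDisc.norm_charHom_le _) hL _)
    ((ErdosDisc.hasSum_gap ha hL t).mul_left 4)
  rw [ErdosDisc.dev_eq, ErdosDisc.dev_eq, mul_left_comm 4]
  refine mul_le_mul_of_nonneg_left ?_ (Real.rpow_nonneg (Nat.cast_nonneg _) _)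
  obtain ⟨z, hz⟩ : ∃ z, z = twistHom (primeHom f) χ p * ((p : ℕ) : ℂ) ^ (-(t * I)) := ⟨_, rfl⟩
  have hz1 : ‖z‖ ≤ 1 := hz ▸ ErdosDisc.norm_mul_cpow_le ha p t
  have h := ErdosDisc.one_sub_re_mul_conj_le hz1 (show ‖conj z‖ ≤ 1 by rwa [Complex.norm_conj])
  rw [conj_conj, conj_re] at h
  have e : z * z = charHom (χ ^ 2) p * ((p : ℕ) : ℂ) ^ (-(((2 * t : ℝ) : ℂ) * I)) := by
    have hg : primeHom f p * primeHom f p = 1 := by
      rw [primeHom, Halasz.cmExt_prime _ p.2, ← Int.cast_mul, hf.sq_eq p.2.ne_zero, Int.cast_one]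
    rw [hz, ErdosDisc.twistHom_apply _ χ p.2.ne_zero, ErdosDisc.charHom_apply _ p.2.ne_zero,
      MulChar.pow_apply' χ two_ne_zero,
      show (-(((2 * t : ℝ) : ℂ) * I)) = -(t * I) + -(t * I) by push_cast; ring,
      cpow_add _ _ (Nat.cast_ne_zero.2 p.2.ne_zero)]
    linear_combination (χ (p : ℕ) * χ (p : ℕ) * (((p : ℕ) : ℂ) ^ (-(t * I))) *
      (((p : ℕ) : ℂ) ^ (-(t * I)))) * hg
  rw [← hz, ← e]
  linarith

/-- The character is real and the height bounded. -/
theorem eventually_real_char (hf : SignFun f) (W : ℕ) {δ : ℝ} (hδ : 0 < δ) :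
    ∀ᶠ N : ℕ in atTop, ∀ b ∈ Icc 1 W, ∀ (χ : DirichletCharacter ℂ b) (u : ℝ),
      |u| ≤ (N : ℝ) ^ 3 → δ ≤ mass (twistHom (primeHom f) χ) (Real.log N) u →
        χ ^ 2 = 1 ∧ |u| ≤ 8 ∧
          gap (twistHom (primeHom f) χ) (Real.log N) u ≤ Real.log (massConst / δ) := by
  have hM := ErdosDisc.massConst_pos
  obtain ⟨c, hc⟩ : ∃ c : ℝ, c = (δ / massConst) ^ 4 / massConst := ⟨_, rfl⟩
  have hc0 : 0 < c := hc ▸ by positivity
  refine (eventually_all_finset _).2 fun b hb => ?_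
  have : NeZero b := ⟨by have := (mem_Icc.1 hb).1; omega⟩
  have hlog : Tendsto (fun N : ℕ => Real.log N) atTop atTop :=
    Real.tendsto_log_atTop.comp tendsto_natCast_atTop_atTop
  filter_upwards [hlog.eventually (ErdosDisc.eventually_mass_char_le b (half_pos hc0)),
    hlog.eventually ErdosDisc.eventually_mass_gap, hlog.eventually_gt_atTop (64 : ℝ),
    eventually_ge_atTop 1] with N hchar hgap hL hN χ u hu hm
  have ha := ErdosDisc.norm_twistHom_le (norm_primeHom_le hf) χ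
  have hL0 : 0 < Real.log N := by linarith
  have hexp : δ / massConst ≤ Real.exp (-gap (twistHom (primeHom f) χ) (Real.log N) u) := by
    rw [div_le_iff₀' hM]
    exact hm.trans (hgap _ ha u).2
  have hG : gap (twistHom (primeHom f) χ) (Real.log N) u ≤ Real.log (massConst / δ) := by
    have h := Real.log_le_log (by positivity) hexp
    rw [Real.log_exp, Real.log_div hδ.ne' hM.ne'] at h
    rw [Real.log_div hM.ne' hδ.ne']
    linarith
  have hsq : c ≤ mass (charHom (χ ^ 2)) (Real.log N) (2 * u) := by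
    rw [hc, div_le_iff₀ hM]
    refine (pow_le_pow_left₀ (by positivity) hexp 4).trans ?_
    rw [← Real.exp_nat_mul]
    refine (Real.exp_le_exp.2 ?_).trans ((hgap _ (ErdosDisc.norm_charHom_le _) (2 * u)).1.trans_eq
      (mul_comm _ _))
    have := gap_charHom_sq_le hf χ hL0 u
    push_cast
    linarith
  have hu2 : |2 * u| ≤ Real.exp (Real.log N ^ (4 / 3 : ℝ)) := by
    have h1 : Real.log N * 4 ≤ Real.log N ^ (4 / 3 : ℝ) := by
      rw [show (4 / 3 : ℝ) = 1 + 1 / 3 by norm_num, Real.rpow_add hL0, Real.rpow_one]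
      refine mul_le_mul_of_nonneg_left ?_ hL0.le
      calc (4 : ℝ) = 64 ^ (1 / 3 : ℝ) := by
            rw [show (64 : ℝ) = 4 ^ (3 : ℕ) by norm_num, ← Real.rpow_natCast,
              ← Real.rpow_mul (by norm_num)]
            norm_num
        _ ≤ _ := Real.rpow_le_rpow (by norm_num) hL.le (by norm_num)
    refine le_trans ?_ (Real.exp_le_exp.2 h1)
    rw [mul_comm (Real.log (N : ℝ)), show (4 : ℝ) = ((4 : ℕ) : ℝ) by norm_num, Real.exp_nat_mul,
      Real.exp_log (Nat.cast_pos.2 hN), abs_mul, abs_two, pow_succ _ 3, mul_comm (_ ^ 3)]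
    refine mul_le_mul ?_ hu (abs_nonneg u) (Nat.cast_nonneg N)
    have := Real.log_le_sub_one_of_pos (Nat.cast_pos.2 hN : (0 : ℝ) < N)
    linarith
  obtain ⟨h1, h2⟩ : χ ^ 2 = 1 ∧ |2 * u| < 16 := by
    have h := fun hψ => (hsq.trans (hchar (χ ^ 2) (2 * u) hu2 hψ)).not_gt (half_lt_self hc0)
    constructor <;> by_contra hne
    exacts [h (Or.inl hne), h (Or.inr (le_of_not_gt hne))]
  rw [abs_mul, abs_two] at h2
  exact ⟨h1, by linarith, hG⟩

theorem continuous_dev (a : ℕ →*₀ ℂ) (p : Nat.Primes) :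
    Continuous fun z : ℝ × ℝ => dev a p z.1 z.2 := by
  simp only [ErdosDisc.dev_eq]
  refine (Continuous.rpow continuous_const continuous_fst.neg fun _ =>
    Or.inl (Nat.cast_ne_zero.2 p.2.ne_zero)).mul (continuous_const.sub (continuous_re.comp
    (continuous_const.mul (Continuous.const_cpow ?_ (Or.inl (Nat.cast_ne_zero.2 p.2.ne_zero))))))
  fun_prop

/-- **Bounded sums make `f` pretentious to a real character.** -/
theorem exists_real_character (hf : SignFun f) {C : ℤ} (hC : ∀ N, |psum f N| ≤ C) :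
    ∃ (q : ℕ) (χ : DirichletCharacter ℂ q), q ≠ 0 ∧ χ ^ 2 = 1 ∧
      Summable ({p : ℕ | p.Prime ∧ (f p : ℂ) ≠ χ p}.indicator fun p : ℕ => 1 / (p : ℝ)) := by
  classical
  obtain ⟨δ, W, hδ, hev⟩ := exists_pretentious hf hC
  obtain ⟨G, hG⟩ : ∃ G : ℝ, G = Real.log (massConst / δ) := ⟨_, rfl⟩
  have hall : ∀ᶠ N : ℕ in atTop, ∃ b ∈ Icc 1 W, ∃ χ : DirichletCharacter ℂ b, χ ^ 2 = 1 ∧
      ∃ u ∈ Set.Icc (-8 : ℝ) 8, gap (twistHom (primeHom f) χ) (Real.log N) u ≤ G := by
    filter_upwards [hev, eventually_real_char hf W hδ] with N ⟨b, hb, χ, u, hu, hm⟩ hN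
    obtain ⟨h1, h2, h3⟩ := hN b hb χ u hu hm
    exact ⟨b, hb, χ, h1, u, abs_le.1 h2, hG ▸ h3⟩
  obtain ⟨q, hq, hfr⟩ : ∃ b ∈ Icc 1 W, ∃ᶠ N : ℕ in atTop, ∃ χ : DirichletCharacter ℂ b,
      χ ^ 2 = 1 ∧ ∃ u ∈ Set.Icc (-8 : ℝ) 8,
        gap (twistHom (primeHom f) χ) (Real.log N) u ≤ G := by
    by_contra! h
    obtain ⟨N, hN, b, hb, χ, h1, u, hu, h2⟩ := (((eventually_all_finset (Icc 1 W)).2 h).and
      hall).exists
    exact (hN b hb χ h1 u hu).not_ge h2
  have : NeZero q := ⟨by have := (mem_Icc.1 hq).1; omega⟩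
  obtain ⟨χ, hfr⟩ : ∃ χ : DirichletCharacter ℂ q, ∃ᶠ N : ℕ in atTop, χ ^ 2 = 1 ∧
      ∃ u ∈ Set.Icc (-8 : ℝ) 8, gap (twistHom (primeHom f) χ) (Real.log N) u ≤ G := by
    by_contra! h
    obtain ⟨N, hN, hP⟩ := ((eventually_all.2 h).and_frequently hfr).exists
    obtain ⟨χ, h1, u, hu, h2⟩ := hP
    exact (hN χ h1 u hu).not_ge h2
  obtain ⟨φ, hφ, hP⟩ := extraction_of_frequently_atTop hfr
  have hχ : χ ^ 2 = 1 := (hP 0).1
  choose u hu hgap using fun k => (hP k).2
  obtain ⟨t, -, ψ, hψ, htend⟩ := (isCompact_Icc (a := (-8 : ℝ)) (b := 8)).tendsto_subseq hu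
  have ha := ErdosDisc.norm_twistHom_le (norm_primeHom_le hf) χ
  have hseq : Tendsto (fun k => Real.log (φ (ψ k) : ℕ)) atTop atTop :=
    (Real.tendsto_log_atTop.comp tendsto_natCast_atTop_atTop).comp
      ((hφ.comp hψ).tendsto_atTop)
  have hfin : ∀ (s : Finset Nat.Primes) (σ : ℝ), 1 ≤ σ →
      ∑ p ∈ s, dev (twistHom (primeHom f) χ) p σ t ≤ G := by
    intro s
    have hstrict : ∀ σ : ℝ, 1 < σ → ∑ p ∈ s, dev (twistHom (primeHom f) χ) p σ t ≤ G := by
      intro σ hσ
      refine le_of_tendsto ((((continuous_finsetSum s fun p _ => continuous_dev _ p).comp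
        (Continuous.prodMk_right σ)).tendsto t).comp htend) ?_
      filter_upwards [hseq.eventually_ge_atTop (1 / (σ - 1)), hseq.eventually_gt_atTop 0]
        with k hk hk0
      have hL : 0 < 1 / (σ - 1) := one_div_pos.2 (by linarith)
      refine le_trans ?_ ((ErdosDisc.gap_mono ha hL hk (u (ψ k))).trans (hgap (ψ k)))
      rw [gap, show 1 + 1 / (1 / (σ - 1)) = σ by rw [one_div_one_div]; ring]
      refine (Halasz.hasSum_dev ha hσ _).summable.sum_le_tsum s fun p _ =>
        dev_nonneg ha p (by linarith) _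
    intro σ hσ
    rcases hσ.lt_or_eq with h | rfl
    · exact hstrict σ h
    refine le_of_tendsto ((((continuous_finsetSum s fun p _ => continuous_dev _ p).comp
      (Continuous.prodMk_left t)).tendsto 1).mono_left
        (nhdsWithin_le_nhds (s := Set.Ioi 1))) ?_
    filter_upwards [self_mem_nhdsWithin] with σ hσ
    exact hstrict σ hσ
  have ht : t = 0 := by
    by_contra ht
    have hne : ((1 : ℝ) : ℂ) + ((2 * t : ℝ) : ℂ) * I ≠ 1 := fun h => by
      have := congrArg Complex.im h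
      simp at this
      exact ht this
    have hlim : Tendsto (fun L : ℝ => mass (charHom (χ ^ 2)) L (2 * t)) atTop (𝓝 0) := by
      have h1 : Tendsto (fun L : ℝ => ((1 + 1 / L : ℝ) : ℂ) + ((2 * t : ℝ) : ℂ) * I) atTop
          (𝓝 (((1 : ℝ) : ℂ) + ((2 * t : ℝ) : ℂ) * I)) := by
        refine ((continuous_ofReal.tendsto 1).comp ?_).add_const _
        simpa using (tendsto_inv_atTop_zero (𝕜 := ℝ)).const_add 1
      refine (((DirichletCharacter.differentiableAt_LFunction (χ ^ 2) _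
        (Or.inl hne)).continuousAt.tendsto.comp h1).norm.div_atTop tendsto_id).congr' ?_
      filter_upwards [eventually_gt_atTop (0 : ℝ)] with L hL
      rw [ErdosDisc.mass_charHom (χ ^ 2) hL]
      rfl
    obtain ⟨L, hgm, hL, hsmall⟩ := (ErdosDisc.eventually_mass_gap.and
      ((eventually_gt_atTop (0 : ℝ)).and (hlim.eventually (gt_mem_nhds (show
        0 < Real.exp (-(4 * G)) / massConst from
          div_pos (Real.exp_pos _) ErdosDisc.massConst_pos))))).exists
    have hg : gap (twistHom (primeHom f) χ) L t ≤ G :=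
      (Halasz.hasSum_dev ha (ErdosDisc.one_lt_scale hL) t).summable.tsum_le_of_sum_le
        fun s => hfin s _ (ErdosDisc.one_lt_scale hL).le
    have h1 : Real.exp (-(4 * G)) ≤ massConst * mass (charHom (χ ^ 2)) L (2 * t) :=
      le_trans (Real.exp_le_exp.2 (by linarith [gap_charHom_sq_le hf χ hL t]))
        (hgm _ (ErdosDisc.norm_charHom_le _) _).1
    rw [lt_div_iff₀ ErdosDisc.massConst_pos] at hsmall
    linarith
  refine ⟨q, χ, NeZero.ne q, hχ, summable_of_sum_le (c := G)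
    (fun p => Set.indicator_nonneg (fun p _ => by positivity) p) fun s => ?_⟩
  have e : ∀ p ∈ s, ({p : ℕ | p.Prime ∧ (f p : ℂ) ≠ χ p}.indicator
      fun p : ℕ => 1 / (p : ℝ)) p ≤ if p.Prime then
        dev (twistHom (primeHom f) χ) p 1 t else 0 := fun p _ => by
    by_cases hp : p.Prime
    · rw [if_pos hp, ErdosDisc.dev_eq _ ⟨p, hp⟩, ht, Complex.ofReal_zero, zero_mul, neg_zero,
        cpow_zero, mul_one, ErdosDisc.twistHom_apply _ χ hp.ne_zero, primeHom,
        Halasz.cmExt_prime _ hp, Real.rpow_neg_one]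
      have hle : ((f p : ℂ) * χ (p : ℕ)).re ≤ 1 := by
        refine (re_le_norm _).trans ?_
        rw [norm_mul]
        exact mul_le_one₀ (by rcases hf.sign p hp.ne_zero with e | e <;> simp [e]) (norm_nonneg _)
          (χ.norm_le_one _)
      by_cases hd : (f p : ℂ) = χ p
      · rw [Set.indicator_of_notMem (fun h => h.2 hd)]
        exact mul_nonneg (by positivity) (by linarith)
      · rw [Set.indicator_of_mem (s := {p : ℕ | p.Prime ∧ (f p : ℂ) ≠ χ p}) ⟨hp, hd⟩, one_div]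
        refine le_mul_of_one_le_right (by positivity) ?_
        by_cases hpq : p ∣ q
        · have h0 : χ (p : ℕ) = 0 := χ.map_nonunit fun h =>
            (hp.coprime_iff_not_dvd.1 ((ZMod.isUnit_iff_coprime p q).1 h)) hpq
          simp [h0]
        · rcases char_sq_eq_one hχ (hp.coprime_iff_not_dvd.2 hpq) with e1 | e1 <;>
            rcases hf.sign p hp.ne_zero with e2 | e2
          all_goals simp_all
    · rw [if_neg hp, Set.indicator_of_notMem fun h => hp h.1]
  refine (sum_le_sum e).trans ?_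
  rw [← sum_filter, ← sum_subtype_eq_sum_filter]
  exact hfin (s.subtype Nat.Prime) 1 le_rfl

end FA.Klurman

end
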