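import Fermat.Agent.Klurman.Height

/-!
# Steady completely multiplicative functions are the powers `n ^ (it)`

The pretended character is principal, as a nonprincipal one has mean zero over a period, and then
the indicator of the multiples of `p` less `1 / p` shows `g p p ^ (-it) = 1`.
-/

set_option autoImplicit false

noncomputable section

namespace FA.Klurman

open Finset Filter Complex
open FA.ErdosDisc (mass gap massConst twistHom wt osc)
open scoped Topology

theorem mass_eq_tsum (a : ℕ →*₀ ℂ) {L : ℝ} (hL : 0 < L) (t : ℝ) :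
    mass a L t = ‖∑' n, (wt L n : ℂ) * (a n * osc t n)‖ := by
  rw [mass, LSeries]
  refine ((show ∀ z : ℂ, ‖z‖ / L = ‖z / (L : ℂ)‖ from fun z => by
    rw [norm_div, Complex.norm_of_nonneg hL.le]) _).trans ?_
  rw [← tsum_div_const]
  congr 1
  refine tsum_congr fun n => ?_
  rcases eq_or_ne n 0 with rfl | hn
  · simp [ErdosDisc.wt_zero hL]
  rw [LSeries.term_of_ne_zero hn, wt, osc, ofReal_div, ofReal_cpow n.cast_nonneg, ofReal_natCast,
    cpow_add _ _ (Nat.cast_ne_zero.2 hn), cpow_neg _ ((t : ℂ) * I), ofReal_neg, cpow_neg]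
  field_simp

theorem sum_periodic_char {b : ℕ} [NeZero b] (χ : DirichletCharacter ℂ b) (hχ : χ ≠ 1) (n : ℕ) :
    ∑ j ∈ range b, χ ((n + j : ℕ) : ZMod b) = 0 := by
  rw [← MulChar.sum_eq_zero_of_ne_one hχ, ← Equiv.sum_comp (Equiv.addLeft (n : ZMod b)) χ]
  refine sum_nbij' (fun j => (j : ZMod b)) (fun x => x.val) (fun j _ => mem_univ _)
    (fun x _ => mem_range.2 x.val_lt) (fun j hj => ZMod.val_cast_of_lt (mem_range.1 hj))
    (fun x _ => ZMod.natCast_zmod_val x) fun j _ => ?_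
  simp

theorem sum_multiples_sub {p : ℕ} (hp : 0 < p) (n : ℕ) :
    ∑ j ∈ range p, ((if p ∣ n + j then (1 : ℂ) else 0) - 1 / p) = 0 := by
  rw [sum_sub_distrib, sum_const, card_range, nsmul_eq_mul,
    mul_one_div_cancel (Nat.cast_ne_zero.2 hp.ne')]
  have e : (range p).filter (fun j => p ∣ n + j) = {(p - n % p) % p} := by
    ext j
    simp only [mem_filter, mem_range, mem_singleton, Nat.dvd_iff_mod_eq_zero]
    constructor
    · rintro ⟨hj, h⟩
      rw [Nat.add_mod, Nat.mod_eq_of_lt hj] at h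
      rcases Nat.eq_zero_or_pos (n % p) with h0 | h0
      · rw [h0, Nat.zero_add, Nat.mod_eq_of_lt hj] at h
        rw [h, h0, Nat.sub_zero, Nat.mod_self]
      · have := Nat.mod_lt n hp
        rw [Nat.mod_eq_of_lt (show p - n % p < p by omega)]
        by_contra hne
        rcases lt_or_ge (n % p + j) p with h1 | h1
        · rw [Nat.mod_eq_of_lt h1] at h
          omega
        · rw [Nat.mod_eq_sub_mod h1, Nat.mod_eq_of_lt (by omega)] at h
          omega
    · rintro rfl
      refine ⟨Nat.mod_lt _ hp, ?_⟩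
      rw [Nat.add_mod_mod, Nat.add_mod, ← Nat.add_mod_mod, Nat.mod_mod]
      have := Nat.mod_lt n hp
      rw [Nat.add_mod_mod, show n % p + (p - n % p) = p by omega, Nat.mod_self]
  rw [← sum_filter, e, sum_singleton, sub_self]

/-- Multiples of `p`. -/
theorem tsum_multiples (g : ℕ →*₀ ℂ) {p : ℕ} (hp : 0 < p) {L : ℝ} (hL : 0 < L) (t : ℝ) :
    ∑' n, (wt L n : ℂ) * ((if p ∣ n then (1 : ℂ) else 0) * (g n * osc t n)) =
      (((p : ℝ) ^ (-(1 + 1 / L)) : ℝ) : ℂ) * (g p * osc t p) *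
        ∑' n, (wt L n : ℂ) * (g n * osc t n) := by
  rw [← tsum_mul_left, ← (mul_right_injective₀ hp.ne').tsum_eq (f := fun n =>
    (wt L n : ℂ) * ((if p ∣ n then (1 : ℂ) else 0) * (g n * osc t n))) fun n hn => ?_]
  · refine tsum_congr fun m => ?_
    rw [if_pos (dvd_mul_right p m), one_mul]
    rcases eq_or_ne m 0 with rfl | hm
    · simp [ErdosDisc.wt_zero hL]
    rw [map_mul, osc, osc, osc, wt, wt, Nat.cast_mul, Nat.cast_mul, natCast_mul_natCast_cpow,
      Real.mul_rpow (Nat.cast_nonneg p) (Nat.cast_nonneg m)]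
    push_cast
    ring
  · simp only [Function.mem_support] at hn
    by_cases hd : p ∣ n
    · obtain ⟨m, rfl⟩ := hd
      exact ⟨m, rfl⟩
    · simp [hd] at hn

/-- **Kátai's conjecture** (Klurman), from steadiness in the logarithmic mean. -/
theorem exists_eq_cpow {g : ℕ →*₀ ℂ} (hg : ∀ n, n ≠ 0 → ‖g n‖ = 1)
    (h : Tendsto (fun N : ℕ => (∑ n ∈ Icc 1 N, jump g n / n) / Real.log N) atTop (𝓝 0)) :
    ∃ t : ℝ, ∀ n : ℕ, n ≠ 0 → g n = (n : ℂ) ^ ((t : ℂ) * I) := by
  classical
  obtain ⟨δ, W, T, hδ, hev⟩ := exists_bounded_height hg h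
  have hg1 := ErdosDisc.norm_le_one_of_unimodular hg
  have hw := tendsto_tsum_wt_mul (fun _ => norm_nonneg _) (jump_le_two hg1) h
  have hlog : Tendsto (fun N : ℕ => Real.log N) atTop atTop :=
    Real.tendsto_log_atTop.comp tendsto_natCast_atTop_atTop
  have hM := ErdosDisc.massConst_pos
  obtain ⟨c, hc⟩ : ∃ c : ℝ, c = δ / (massConst ^ 2 * Real.exp (2 * W)) := ⟨_, rfl⟩
  have hc0 : 0 < c := hc ▸ by positivity
  have hchar : ∀ᶠ L : ℝ in atTop, ∀ b ∈ Icc 1 W, ∀ χ : DirichletCharacter ℂ b, χ ≠ 1 →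
      ∀ t : ℝ, |t| ≤ T → mass (twistHom g χ) L t ≤ δ / 2 := by
    refine (eventually_all_finset _).2 fun b hb => ?_
    have : NeZero b := ⟨by have := (mem_Icc.1 hb).1; omega⟩
    refine eventually_all.2 fun χ => ?_
    by_cases hχ : χ = 1
    · exact Eventually.of_forall fun L h => absurd hχ h
    filter_upwards [eventually_norm_periodic_le hg1 hw (NeZero.pos b) (φ := fun n : ℕ => χ n)
      (fun n => χ.norm_le_one _) (sum_periodic_char χ hχ) (T := T) (half_pos hδ),
      eventually_gt_atTop (0 : ℝ)] with L hL hL0 _ t ht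
    refine le_of_eq_of_le ?_ (hL t ht)
    rw [mass_eq_tsum _ hL0]
    congr 1
    refine tsum_congr fun n => ?_
    rcases eq_or_ne n 0 with rfl | hn
    · simp [ErdosDisc.wt_zero hL0]
    · rw [ErdosDisc.twistHom_apply g χ hn]
      ring
  have hmain : ∀ᶠ N : ℕ in atTop, ∃ u : ℝ, |u| ≤ T ∧
      c ≤ ‖∑' n, (wt (Real.log N) n : ℂ) * (g n * osc u n)‖ := by
    filter_upwards [hev, hlog.eventually hchar, hlog.eventually ErdosDisc.eventually_mass_gap,
      hlog.eventually_gt_atTop 0] with N ⟨b, hb, χ, u, hu, hm⟩ hN hgap hL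
    have hχ : χ = 1 := by
      by_contra hne
      linarith [hN b hb χ hne u hu]
    refine ⟨u, hu, ?_⟩
    rw [← mass_eq_tsum g hL, hc, div_le_iff₀ (by positivity)]
    have hbW : (b : ℝ) ≤ W := Nat.cast_le.2 (mem_Icc.1 hb).2
    have h1 := ErdosDisc.gap_le_add hg1 (ErdosDisc.norm_twistHom_le hg1 χ)
      (show b ≠ 0 by have := (mem_Icc.1 hb).1; omega) (fun p hp hpb => ?_) hL u
    · have h2 : Real.exp (-gap (twistHom g χ) (Real.log N) u) ≤
          Real.exp (2 * W) * Real.exp (-gap g (Real.log N) u) := by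
        rw [← Real.exp_add, Real.exp_le_exp]
        linarith
      refine hm.trans (((hgap _ (ErdosDisc.norm_twistHom_le hg1 χ) u).2).trans ?_)
      refine (mul_le_mul_of_nonneg_left (h2.trans (mul_le_mul_of_nonneg_left (hgap g hg1 u).1
        (Real.exp_pos _).le)) hM.le).trans (le_of_eq ?_)
      ring
    · rw [ErdosDisc.twistHom_apply g χ hp.ne_zero, hχ,
        MulChar.one_apply ((ZMod.isUnit_iff_coprime p b).2 (hp.coprime_iff_not_dvd.2 hpb)), mul_one]
  obtain ⟨N₀, hN₀⟩ := eventually_atTop.1 hmain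
  choose U hU hUc using fun k : ℕ => hN₀ (N₀ + k) (Nat.le_add_right _ _)
  obtain ⟨t, -, ψ, hψ, ht⟩ := (isCompact_Icc (a := -T) (b := T)).tendsto_subseq
    (x := U) fun k => abs_le.1 (hU k)
  have hseq : Tendsto (fun k => N₀ + ψ k) atTop atTop :=
    tendsto_atTop_mono (fun k => Nat.le_add_left _ _) hψ.tendsto_atTop
  have hL : Tendsto (fun k => Real.log ((N₀ + ψ k : ℕ) : ℝ)) atTop atTop := hlog.comp hseq
  refine ⟨t, fun n hn => ?_⟩
  induction n using induction_on_primes with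
  | zero => exact absurd rfl hn
  | one => simp
  | prime_mul p a hp ih =>
    rw [map_mul, ih (right_ne_zero_of_mul hn), Nat.cast_mul, natCast_mul_natCast_cpow]
    congr 1
    have hp0 : (p : ℂ) ≠ 0 := Nat.cast_ne_zero.2 hp.ne_zero
    obtain ⟨Z, hZ⟩ : ∃ Z : ℕ → ℂ, Z = fun k =>
        (((p : ℝ) ^ (-(1 + 1 / Real.log ((N₀ + ψ k : ℕ) : ℝ))) : ℝ) : ℂ) *
          (g p * osc (U (ψ k)) p) - 1 / p := ⟨_, rfl⟩
    have hlim : Tendsto Z atTop
        (𝓝 ((((p : ℝ) ^ (-(1 : ℝ)) : ℝ) : ℂ) * (g p * osc t p) - 1 / p)) := by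
      rw [hZ]
      refine Tendsto.sub_const (Tendsto.mul ((continuous_ofReal.tendsto _).comp ?_)
        (Tendsto.const_mul (g p) ?_)) _
      · refine (Real.continuousAt_const_rpow (Nat.cast_ne_zero.2 hp.ne_zero)).tendsto.comp ?_
        simpa using ((tendsto_const_nhds (x := (1 : ℝ))).div_atTop hL).const_add 1 |>.neg
      · have hc : Continuous fun u : ℝ => osc u p := by
          simp only [osc]
          exact Continuous.const_cpow (by fun_prop) (Or.inl hp0)
        exact (hc.tendsto t).comp ht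
    have hzero : Tendsto Z atTop (𝓝 0) := by
      rw [Metric.tendsto_nhds]
      intro ε hε
      filter_upwards [hL.eventually (eventually_norm_periodic_le hg1 hw hp.pos
        (φ := fun n : ℕ => (if p ∣ n then (1 : ℂ) else 0) - 1 / p) (fun n => by
          have h1 : (1 : ℝ) / p ≤ 1 :=
            (div_le_one (Nat.cast_pos.2 hp.pos)).2 (Nat.one_le_cast.2 hp.one_le)
          have h2 : (0 : ℝ) ≤ 1 / p := by positivity
          rw [show (1 : ℂ) / p = ((1 / p : ℝ) : ℂ) by push_cast; rfl]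
          split_ifs
          · rw [← ofReal_one, ← ofReal_sub, Complex.norm_real, Real.norm_eq_abs, abs_le]
            constructor <;> linarith
          · rw [zero_sub, norm_neg, Complex.norm_real, Real.norm_eq_abs, abs_of_nonneg h2]
            exact h1) (sum_multiples_sub hp.pos) (T := T)
          (show 0 < ε / 2 * c by positivity)),
        hL.eventually_gt_atTop 0] with k hk hk0
      have h1 := hk (U (ψ k)) (hU (ψ k))
      simp only [sub_mul] at h1
      rw [tsum_congr fun n => mul_sub (wt (Real.log ((N₀ + ψ k : ℕ) : ℝ)) n : ℂ) _ _,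
        Summable.tsum_sub (ErdosDisc.summable_wt_mul hk0 (B := 1) fun n => ?_)
          (ErdosDisc.summable_wt_mul hk0 (B := 1) fun n => ?_), tsum_multiples g hp.pos hk0] at h1
      · have e : ∀ n : ℕ, (wt (Real.log ((N₀ + ψ k : ℕ) : ℝ)) n : ℂ) *
            (1 / p * (g n * osc (U (ψ k)) n)) = (1 / p : ℂ) *
              ((wt (Real.log ((N₀ + ψ k : ℕ) : ℝ)) n : ℂ) * (g n * osc (U (ψ k)) n)) :=
          fun n => by ring
        rw [tsum_congr e, tsum_mul_left, ← sub_mul, norm_mul] at h1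
        rw [dist_zero_right, hZ]
        have h2 := (mul_le_mul_of_nonneg_left (hUc (ψ k)) (norm_nonneg _)).trans h1
        have h3 := le_of_mul_le_mul_right h2 hc0
        linarith
      · rw [norm_mul, norm_mul]
        refine mul_le_one₀ ?_ (mul_nonneg (norm_nonneg _) (norm_nonneg _))
          (mul_le_one₀ (hg1 n) (norm_nonneg _) (ErdosDisc.norm_osc_le _ n))
        split_ifs <;> simp
      · rw [norm_mul, norm_mul]
        refine mul_le_one₀ ?_ (mul_nonneg (norm_nonneg _) (norm_nonneg _))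
          (mul_le_one₀ (hg1 n) (norm_nonneg _) (ErdosDisc.norm_osc_le _ n))
        rw [norm_div, norm_one, Complex.norm_natCast]
        exact (div_le_one (Nat.cast_pos.2 hp.pos)).2 (Nat.one_le_cast.2 hp.one_le)
    have heq := sub_eq_zero.1 (tendsto_nhds_unique hlim hzero)
    rw [Real.rpow_neg_one, ofReal_inv, ofReal_natCast, one_div] at heq
    have h1 : g p * osc t p = 1 :=
      mul_left_cancel₀ (inv_ne_zero hp0) (heq.trans (mul_one _).symm)
    rw [osc, cpow_neg, mul_inv_eq_one₀ (cpow_ne_zero_iff.2 (Or.inl hp0))] at h1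
    exact h1

/-- The converse. -/
theorem tendsto_jump_cpow {g : ℕ → ℂ} (t : ℝ)
    (hg : ∀ n : ℕ, n ≠ 0 → g n = (n : ℂ) ^ ((t : ℂ) * I)) :
    Tendsto (fun N : ℕ => (∑ n ∈ Icc 1 N, jump g n / n) / Real.log N) atTop (𝓝 0) := by
  have hsq : Summable fun n : ℕ => ((n : ℝ) ^ 2)⁻¹ := Real.summable_nat_pow_inv.2 one_lt_two
  have hlog : Tendsto (fun N : ℕ => Real.log N) atTop atTop :=
    Real.tendsto_log_atTop.comp tendsto_natCast_atTop_atTop
  refine squeeze_zero' (g := fun N : ℕ => |t| * (∑' n : ℕ, ((n : ℝ) ^ 2)⁻¹) / Real.log N)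
    (Eventually.of_forall fun N => div_nonneg (sum_nonneg fun n _ =>
      div_nonneg (norm_nonneg _) (Nat.cast_nonneg n)) (Real.log_natCast_nonneg N))
    (Eventually.of_forall fun N => ?_) (tendsto_const_nhds.div_atTop hlog)
  refine div_le_div_of_nonneg_right ?_ (Real.log_natCast_nonneg N)
  refine le_trans (sum_le_sum (g := fun n : ℕ => |t| * ((n : ℝ) ^ 2)⁻¹) fun n hn => ?_) ?_
  · have hn1 := (mem_Icc.1 hn).1
    have e : ∀ m : ℕ, m ≠ 0 → g m = osc (-t) m := fun m hm => by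
      rw [hg m hm, osc]
      push_cast
      ring_nf
    rw [jump, e n (by omega), e (n + 1) (Nat.succ_ne_zero n)]
    refine (div_le_div_of_nonneg_right (ErdosDisc.norm_osc_sub_le (-t) hn1 1)
      (Nat.cast_nonneg n)).trans (le_of_eq ?_)
    rw [abs_neg, Nat.cast_one, mul_div_assoc, div_div, ← sq, one_div]
  · rw [← mul_sum]
    exact mul_le_mul_of_nonneg_left (hsq.sum_le_tsum _ fun n _ => by positivity) (abs_nonneg t)

theorem sum_div_le_of_sum_le {a : ℕ → ℝ} {ε K : ℝ} (hε : 0 ≤ ε)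
    (h : ∀ n, ∑ m ∈ Icc 1 n, a m ≤ ε * n + K) : ∀ N : ℕ, 1 ≤ N →
      ∑ n ∈ Icc 1 N, a n / n ≤ (∑ m ∈ Icc 1 N, a m) / N + ε * Real.log N + K * (1 - 1 / (N : ℝ))
  | 0, h => absurd h (by norm_num)
  | 1, _ => by simp
  | N + 2, _ => by
    have ih := sum_div_le_of_sum_le hε h (N + 1) (by omega)
    rw [sum_Icc_succ_top (show 1 ≤ N + 1 + 1 by omega),
      sum_Icc_succ_top (show 1 ≤ N + 1 + 1 by omega), add_div]
    obtain ⟨A, hA⟩ : ∃ A, A = ∑ m ∈ Icc 1 (N + 1), a m := ⟨_, rfl⟩
    obtain ⟨x, hx⟩ : ∃ x : ℝ, x = ((N + 1 : ℕ) : ℝ) := ⟨_, rfl⟩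
    have hx1 : 1 ≤ x := hx ▸ Nat.one_le_cast.2 (by omega)
    have hA' := h (N + 1)
    rw [← hA, ← hx] at ih
    rw [← hA, ← hx] at hA'
    rw [← hA, show ((N + 1 + 1 : ℕ) : ℝ) = x + 1 by rw [hx]; push_cast; ring]
    have e : A / x - A / (x + 1) = A / (x * (x + 1)) := by
      field_simp
      ring
    have h1 : A / (x * (x + 1)) ≤ ε / (x + 1) + K * (1 / x - 1 / (x + 1)) := by
      rw [div_le_iff₀ (by positivity)]
      refine hA'.trans (le_of_eq ?_)
      field_simp
      ring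
    have h2 : ε / (x + 1) ≤ ε * (Real.log (x + 1) - Real.log x) := by
      rw [← Real.log_div (by positivity) (by positivity), ← mul_one_div]
      refine mul_le_mul_of_nonneg_left ?_ hε
      have h3 := Real.one_sub_inv_le_log_of_pos (show 0 < (x + 1) / x by positivity)
      refine le_trans (le_of_eq ?_) h3
      field_simp
      ring
    linarith

/-- The original hypothesis implies the logarithmic one. -/
theorem tendsto_log_mean_of_mean {a : ℕ → ℝ} (ha : ∀ n, 0 ≤ a n)
    (h : Tendsto (fun N : ℕ => (∑ n ∈ Icc 1 N, a n) / N) atTop (𝓝 0)) :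
    Tendsto (fun N : ℕ => (∑ n ∈ Icc 1 N, a n / n) / Real.log N) atTop (𝓝 0) := by
  have hlog : Tendsto (fun N : ℕ => Real.log N) atTop atTop :=
    Real.tendsto_log_atTop.comp tendsto_natCast_atTop_atTop
  rw [Metric.tendsto_nhds]
  intro ε hε
  obtain ⟨N₀, hN₀⟩ := eventually_atTop.1 (h.eventually (ge_mem_nhds (show 0 < ε / 4 by positivity)))
  obtain ⟨K, hK⟩ : ∃ K, K = ∑ n ∈ Icc 1 N₀, a n := ⟨_, rfl⟩
  have hbound : ∀ n, ∑ m ∈ Icc 1 n, a m ≤ ε / 4 * n + K := fun n => by
    rcases le_or_gt n N₀ with hn | hn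
    · refine le_add_of_nonneg_of_le (by positivity) (hK ▸ ?_)
      exact sum_le_sum_of_subset_of_nonneg (Icc_subset_Icc_right hn) fun m _ _ => ha m
    · refine le_add_of_le_of_nonneg ?_ (hK ▸ sum_nonneg fun m _ => ha m)
      rw [← div_le_iff₀ (Nat.cast_pos.2 (by omega))]
      exact hN₀ n hn.le
  filter_upwards [eventually_ge_atTop (max N₀ 2),
    hlog.eventually_ge_atTop (max 1 (4 * (K + 1) / ε))] with N hN hL
  have hN1 : 1 ≤ N := le_trans (by omega) hN
  have hs := sum_div_le_of_sum_le (by positivity) hbound N hN1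
  have hA := hN₀ N ((le_max_left _ _).trans hN)
  have hK0 : 0 ≤ K := hK ▸ sum_nonneg fun m _ => ha m
  have hK1 : K * (1 - 1 / (N : ℝ)) ≤ K :=
    mul_le_of_le_one_right hK0 (by linarith [show (0 : ℝ) ≤ 1 / N by positivity])
  have hL1 : 1 ≤ Real.log (N : ℝ) := (le_max_left _ _).trans hL
  have hLK := (le_max_right _ _).trans hL
  rw [div_le_iff₀ hε] at hLK
  rw [Real.dist_eq, sub_zero, abs_of_nonneg (div_nonneg (sum_nonneg fun n _ =>
    div_nonneg (ha n) (Nat.cast_nonneg n)) (by linarith)), div_lt_iff₀ (by linarith)]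
  nlinarith

end FA.Klurman

end
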