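import Mathlib.Analysis.Complex.Basic
import Mathlib.Data.Nat.Factorization.Basic
import Mathlib.Data.Nat.ChineseRemainder
import Mathlib.Data.Nat.Prime.Factorial
import Mathlib.NumberTheory.DirichletCharacter.Basic
import Mathlib.Analysis.PSeries

/-!
# A multiplicative sequence of signs with bounded sums near a character

Were there infinitely many primes at which it differs from the character, the Chinese remainder
theorem would give a long window on which it is constant.
-/

set_option autoImplicit false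

noncomputable section

namespace FA.Klurman

open Finset Filter
open scoped Topology

/-- A multiplicative sequence of signs. -/
structure SignFun (f : ℕ → ℤ) : Prop where
  sign : ∀ n, n ≠ 0 → f n = 1 ∨ f n = -1
  mul : ∀ m n : ℕ, Nat.Coprime m n → f (m * n) = f m * f n

namespace SignFun

variable {f : ℕ → ℤ}

theorem map_one' (hf : SignFun f) : f 1 = 1 := by
  have h := hf.mul 1 1 (Nat.coprime_one_left 1)
  rw [mul_one] at h
  rcases hf.sign 1 one_ne_zero with e | e
  · exact e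
  · rw [e] at h
    norm_num at h

theorem sq_eq (hf : SignFun f) {n : ℕ} (hn : n ≠ 0) : f n * f n = 1 := by
  rcases hf.sign n hn with e | e <;> simp [e]

end SignFun

/-- The partial sums. -/
def psum (f : ℕ → ℤ) (N : ℕ) : ℤ := ∑ n ∈ Icc 1 N, f n

theorem psum_add (f : ℕ → ℤ) (A x : ℕ) :
    psum f (A + x) = psum f A + ∑ i ∈ Icc 1 x, f (A + i) := by
  induction x with
  | zero => simp
  | succ x ih =>
    rw [psum, ← Nat.add_assoc, sum_Icc_succ_top (by omega), ← psum, ih,
      sum_Icc_succ_top (show 1 ≤ x + 1 by omega), add_assoc, Nat.add_assoc A x 1]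

/-- A multiplicative function that follows `χ` on the prime powers of `u` follows it at `u`. -/
theorem cast_eq_char {f : ℕ → ℤ} (hf : SignFun f) {q : ℕ} (χ : DirichletCharacter ℂ q) {u : ℕ}
    (hu : u ≠ 0)
    (h : ∀ p, p.Prime → p ∣ u → (f (p ^ u.factorization p) : ℂ) = χ p ^ u.factorization p) :
    (f u : ℂ) = χ u := by
  rw [Nat.multiplicative_factorization (fun n => (f n : ℂ))
      (fun a b hab => by simp [hf.mul a b hab]) (by simp [hf.map_one']) hu,
    Nat.multiplicative_factorization (fun n => χ (n : ℕ)) (fun a b _ => by simp) (by simp) hu]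
  refine Finsupp.prod_congr fun p hp => ?_
  rw [Nat.support_factorization, Nat.mem_primeFactors] at hp
  simp only [Nat.cast_pow, map_pow]
  exact h p hp.1 hp.2.1

theorem char_sq_eq_one {q : ℕ} {χ : DirichletCharacter ℂ q} (hχ : χ ^ 2 = 1) {n : ℕ}
    (hn : Nat.Coprime n q) : χ n = 1 ∨ χ n = -1 := by
  refine sq_eq_one_iff.1 ?_
  have h1 := congrArg (fun ψ : DirichletCharacter ℂ q => ψ (n : ℕ)) hχ
  simp only [MulChar.pow_apply' χ two_ne_zero] at h1
  rw [h1]
  exact MulChar.one_apply ((ZMod.isUnit_iff_coprime n q).2 hn)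

theorem card_dvd_linear_le {P M : ℕ} (hPM : Nat.Coprime P M) (c Z : ℕ) :
    ((range Z).filter fun z => P ∣ c + M * z).card ≤ Z / P + 1 := by
  refine (card_le_card_of_injOn (fun z => z / P) (t := range (Z / P + 1)) (fun z hz => ?_)
    fun a ha b hb e => ?_).trans (card_range _).le
  · simp only [mem_coe, mem_filter, mem_range] at hz ⊢
    exact Nat.lt_succ_of_le (Nat.div_le_div_right hz.1.le)
  · simp only [mem_coe, mem_filter] at ha hb
    have h1 : M * a ≡ M * b [MOD P] := Nat.ModEq.add_left_cancel' c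
      ((Nat.modEq_zero_iff_dvd.2 ha.2).trans (Nat.modEq_zero_iff_dvd.2 hb.2).symm)
    have h2 : a % P = b % P := Nat.ModEq.cancel_left_of_coprime hPM h1
    simp only at e
    rw [← Nat.div_add_mod a P, ← Nat.div_add_mod b P, e, h2]

/-- The primes of a set with a small sum of reciprocals are sparse. -/
theorem eventually_card_le_mul {S : Set ℕ} [DecidablePred (· ∈ S)]
    (hS : Summable (S.indicator fun p : ℕ => 1 / (p : ℝ))) {η : ℝ} (hη : 0 < η) :
    ∀ᶠ x : ℕ in atTop, (((Icc 1 x).filter fun p => p ∈ S).card : ℝ) ≤ η * x := by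
  obtain ⟨P, hP⟩ :=
    ((tendsto_sum_nat_add (S.indicator fun p : ℕ => 1 / (p : ℝ))).eventually_le_const
      (half_pos hη)).exists
  filter_upwards [eventually_ge_atTop ⌈2 * (P : ℝ) / η⌉₊, eventually_ge_atTop 1] with x hx hx1
  have hx' : 2 * (P : ℝ) / η ≤ x := (Nat.le_ceil _).trans (Nat.cast_le.2 hx)
  have hx0 : (0 : ℝ) < x := Nat.cast_pos.2 hx1
  rw [div_le_iff₀ hη] at hx'
  have h1 : (((Icc 1 x).filter fun p => p ∈ S).card : ℝ) ≤
      P + x * ∑ k ∈ range (x + 1), S.indicator (fun p : ℕ => 1 / (p : ℝ)) (k + P) := by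
    rw [card_eq_sum_ones, ← sum_filter_add_sum_filter_not _ (fun p => p < P), Nat.cast_add]
    refine add_le_add (Nat.cast_le.2 ?_) ?_
    · rw [← card_eq_sum_ones]
      refine (card_le_card fun p hp => mem_range.2 ?_).trans (card_range P).le
      exact (mem_filter.1 hp).2
    rw [mul_sum, Nat.cast_sum]
    refine (sum_le_sum (g := fun p => (x : ℝ) * S.indicator (fun p : ℕ => 1 / (p : ℝ)) p)
      fun p hp => ?_).trans ?_
    · simp only [mem_filter, mem_Icc] at hp
      rw [Nat.cast_one, Set.indicator_of_mem hp.1.2, mul_one_div,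
        one_le_div (Nat.cast_pos.2 hp.1.1.1)]
      exact Nat.cast_le.2 hp.1.1.2
    · rw [← sum_image (g := fun k => k + P) (s := range (x + 1))
        (f := fun p => (x : ℝ) * S.indicator (fun p : ℕ => 1 / (p : ℝ)) p)
        fun a _ b _ e => by simpa using e]
      refine sum_le_sum_of_subset_of_nonneg (fun p hp => ?_) fun p _ _ =>
        mul_nonneg hx0.le (Set.indicator_nonneg (fun p _ => by positivity) p)
      simp only [mem_filter, mem_Icc, not_lt] at hp
      exact mem_image.2 ⟨p - P, mem_range.2 (by omega), by omega⟩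
  refine h1.trans ?_
  have h2 := mul_le_mul_of_nonneg_left
    (((summable_nat_add_iff P).2 hS).sum_le_tsum (range (x + 1))
      (fun k _ => Set.indicator_nonneg (fun p _ => by positivity) _) |>.trans hP) hx0.le
  linarith

/-- **Finitely many deviant primes.** -/
theorem exists_eventually_eq_char {f : ℕ → ℤ} (hf : SignFun f) {C : ℤ}
    (hC : ∀ N, |psum f N| ≤ C) {q : ℕ} [NeZero q] (χ : DirichletCharacter ℂ q) (hχ : χ ^ 2 = 1)
    (hS : Summable ({p : ℕ | p.Prime ∧ (f p : ℂ) ≠ χ p}.indicator fun p : ℕ => 1 / (p : ℝ))) :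
    ∃ Y : ℕ, ∀ p : ℕ, p.Prime → Y < p → ∀ k : ℕ, (f (p ^ k) : ℂ) = χ p ^ k := by
  classical
  by_contra! hcon
  have hq : 0 < q := NeZero.pos q
  obtain ⟨H, hH⟩ : ∃ H : ℕ, 2 * C < H :=
    ⟨(2 * C).toNat + 1, by push_cast; linarith [Int.self_le_toNat (2 * C)]⟩
  obtain ⟨Y₀, hY₀⟩ : ∃ Y₀, Y₀ = q + H + 1 := ⟨_, rfl⟩
  have hinf : {p : ℕ | p.Prime ∧ Y₀ < p ∧ ∃ k, (f (p ^ k) : ℂ) ≠ χ p ^ k}.Infinite := by
    refine Set.infinite_of_forall_exists_gt fun a => ?_
    obtain ⟨p, hp, hpY, k, hk⟩ := hcon (a + Y₀)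
    exact ⟨p, ⟨hp, by omega, k, hk⟩, by omega⟩
  obtain ⟨P, hP⟩ : ∃ P : ℕ → ℕ, P = fun i => (hinf.natEmbedding _ i : ℕ) := ⟨_, rfl⟩
  have hPinj : Function.Injective P :=
    hP ▸ Subtype.val_injective.comp (hinf.natEmbedding _).injective
  have hPmem : ∀ i, (P i).Prime ∧ Y₀ < P i ∧ ∃ k, (f (P i ^ k) : ℂ) ≠ χ (P i) ^ k := fun i =>
    hP ▸ (hinf.natEmbedding _ i).2
  choose hPp hPY k hk using hPmem
  have hPq : ∀ i, Nat.Coprime (P i) q := fun i =>
    (hPp i).coprime_iff_not_dvd.2 (Nat.not_dvd_of_pos_of_lt hq (by have := hPY i; omega))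
  have hk0 : ∀ i, k i ≠ 0 := fun i e => hk i (by simp [e, hf.map_one'])
  have hflip : ∀ i, (f (P i ^ k i) : ℂ) = -(χ (P i) ^ k i) := fun i => by
    have h1 : χ (P i) ^ k i = 1 ∨ χ (P i) ^ k i = -1 := by
      rcases char_sq_eq_one hχ (hPq i) with e | e
      · exact Or.inl (by rw [e, one_pow])
      · rw [e]
        exact neg_one_pow_eq_or ℂ (k i)
    have h2 : (f (P i ^ k i) : ℂ) = 1 ∨ (f (P i ^ k i) : ℂ) = -1 := by
      rcases hf.sign _ (pow_ne_zero (k i) (hPp i).ne_zero) with e | e <;> simp [e]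
    rcases h1 with e1 | e1 <;> rcases h2 with e2 | e2 <;>
      first
      | exact absurd (e2.trans e1.symm) (hk i)
      | simp [e1, e2]
  obtain ⟨I, hI⟩ : ∃ I, I = (Icc 1 H).filter fun i => f i = -1 := ⟨_, rfl⟩
  obtain ⟨ξ, hξ⟩ : ∃ ξ : ℝ, ξ = 1 / (8 * (H + 1)) := ⟨_, rfl⟩
  have hξ0 : 0 < ξ := hξ ▸ by positivity
  obtain ⟨Y, hYtail, hYPk, hY0Y, hYξ⟩ :=
    (((tendsto_sum_nat_add ({p : ℕ | p.Prime ∧ (f p : ℂ) ≠ χ p}.indicator
      fun p : ℕ => 1 / (p : ℝ))).eventually_le_const hξ0).and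
    ((eventually_ge_atTop (I.sup P)).and ((eventually_ge_atTop Y₀).and
      ((tendsto_natCast_atTop_atTop (R := ℝ)).eventually_ge_atTop (2 / ξ))))).exists
  obtain ⟨O, hO⟩ : ∃ O, O = ((Icc (H + 1) Y).filter fun p => p.Prime ∧ ∀ i ∈ I, P i ≠ p) :=
    ⟨_, rfl⟩
  obtain ⟨D, hD⟩ : ∃ D, D = q * (H.factorial * ∏ p ∈ O, p) := ⟨_, rfl⟩
  have hDpos : 0 < D := hD ▸ Nat.mul_pos hq (Nat.mul_pos H.factorial_pos
    (prod_pos fun p hp => (mem_filter.1 (hO ▸ hp)).2.1.pos))
  have hcop : ∀ i ∈ I, Nat.Coprime (P i) (H.factorial * D) := fun i hi => by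
    have hfac : Nat.Coprime (P i) H.factorial :=
      (hPp i).coprime_iff_not_dvd.2 fun h => by
        have := (hPp i).dvd_factorial.1 h
        have := hPY i
        omega
    refine hfac.mul_right (hD ▸ (hPq i).mul_right (hfac.mul_right
      (Nat.Coprime.prod_right fun p hp => ?_)))
    rw [hO, mem_filter] at hp
    exact (Nat.coprime_primes (hPp i) hp.2.1).2 (hp.2.2 i hi)
  obtain ⟨r, hr⟩ := Nat.chineseRemainderOfFinset (fun i => P i ^ k i + (P i ^ (k i + 1) - i))
    (fun i => P i ^ (k i + 1)) I (fun i _ => pow_ne_zero _ (hPp i).ne_zero)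
    fun i _ j _ hij => (Nat.coprime_primes (hPp i) (hPp j)).2 (fun e => hij (hPinj e)) |>.pow _ _
  obtain ⟨M, hM⟩ : ∃ M, M = H.factorial * D * ∏ i ∈ I, P i ^ (k i + 1) := ⟨_, rfl⟩
  have hM0 : 0 < M := hM ▸ Nat.mul_pos (Nat.mul_pos H.factorial_pos hDpos)
    (prod_pos fun i _ => pow_pos (hPp i).pos _)
  obtain ⟨n₀, hn₀D, hn₀P⟩ := Nat.chineseRemainder (show Nat.Coprime (H.factorial * D)
    (∏ i ∈ I, P i ^ (k i + 1)) from Nat.Coprime.prod_right fun i hi => ((hcop i hi).symm.pow_right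
      _)) 0 r
  have hbad : ∀ p : ℕ, p.Prime → Y < p → Nat.Coprime p M := fun p hp hpY => by
    refine Nat.Coprime.mul_right ?_ ?_ |> (hM ▸ ·)
    · have hfac : Nat.Coprime p H.factorial := hp.coprime_iff_not_dvd.2 fun h => by
        have := hp.dvd_factorial.1 h
        omega
      refine hfac.mul_right (hD ▸ Nat.Coprime.mul_right
        (hp.coprime_iff_not_dvd.2 (Nat.not_dvd_of_pos_of_lt hq (by omega)))
        (hfac.mul_right (Nat.Coprime.prod_right fun p' hp' => ?_)))
      rw [hO, mem_filter, mem_Icc] at hp'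
      exact (Nat.coprime_primes hp hp'.2.1).2 (by omega)
    · refine Nat.Coprime.prod_right fun i hi => Nat.Coprime.pow_right _ ?_
      have := (le_sup (f := P) hi).trans hYPk
      exact (Nat.coprime_primes hp (hPp i)).2 (by omega)
  obtain ⟨z, hz⟩ : ∃ z, ∀ i ∈ Icc 1 H, ∀ p : ℕ, p.Prime → Y < p →
      p ∣ n₀ + i + M * (z + 1) →
        (f p : ℂ) = χ p ∧ ¬p ^ 2 ∣ n₀ + i + M * (z + 1) := by
    by_contra! hall
    obtain ⟨Q, hQ⟩ : ∃ Q, Q = n₀ + H + M + 1 := ⟨_, rfl⟩
    obtain ⟨η, hη⟩ : ∃ η : ℝ, η = ξ / (2 * Q) := ⟨_, rfl⟩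
    have hη0 : 0 < η := hη ▸ div_pos hξ0 (by
      have : (0 : ℝ) < Q := Nat.cast_pos.2 (by omega)
      linarith)
    obtain ⟨x₀, hx₀⟩ := eventually_atTop.1 (eventually_card_le_mul hS hη0)
    obtain ⟨Z, hZ1, hZ2, hZ3⟩ : ∃ Z : ℕ, 1 ≤ Z ∧ x₀ ≤ Z ∧ 2 * (Q : ℝ) ≤ ξ ^ 2 * Z := by
      refine ⟨1 + x₀ + ⌈2 * (Q : ℝ) / ξ ^ 2⌉₊, by omega, by omega, ?_⟩
      rw [← div_le_iff₀' (by positivity)]
      refine (Nat.le_ceil _).trans (Nat.cast_le.2 (by omega))
    obtain ⟨X, hX⟩ : ∃ X, X = Q * (Z + 1) := ⟨_, rfl⟩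
    obtain ⟨S, hSdef⟩ : ∃ S : Finset ℕ,
        S = (Icc (Y + 1) X).filter fun p => p.Prime ∧ (f p : ℂ) ≠ χ p := ⟨_, rfl⟩
    obtain ⟨T, hT⟩ : ∃ T : Finset ℕ, T = (Icc (Y + 1) (Nat.sqrt X)).filter Nat.Prime := ⟨_, rfl⟩
    have hsub : range Z ⊆ (Icc 1 H).biUnion fun i =>
        (S.biUnion fun p => (range Z).filter fun z => p ∣ n₀ + i + M + M * z) ∪
          (T.biUnion fun p => (range Z).filter fun z => p ^ 2 ∣ n₀ + i + M + M * z) := by
      intro z hz
      obtain ⟨i, hi, p, hp, hpY, hdvd, hgood⟩ := hall z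
      have e : n₀ + i + M * (z + 1) = n₀ + i + M + M * z := by ring
      rw [e] at hdvd hgood
      have hi' := mem_Icc.1 hi
      have hz' := mem_range.1 hz
      have hle : n₀ + i + M + M * z ≤ X := by
        rw [hX]
        have : M * z ≤ Q * Z := Nat.mul_le_mul (by omega) hz'.le
        rw [Nat.mul_add, Nat.mul_one]
        omega
      refine mem_biUnion.2 ⟨i, hi, ?_⟩
      by_cases hfp : (f p : ℂ) = χ p
      · refine mem_union_right _ (mem_biUnion.2 ⟨p, ?_, mem_filter.2 ⟨hz, hgood hfp⟩⟩)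
        rw [hT, mem_filter, mem_Icc, Nat.le_sqrt']
        exact ⟨⟨hpY, (Nat.le_of_dvd (by omega) (hgood hfp)).trans hle⟩, hp⟩
      · refine mem_union_left _ (mem_biUnion.2 ⟨p, ?_, mem_filter.2 ⟨hz, hdvd⟩⟩)
        rw [hSdef, mem_filter, mem_Icc]
        exact ⟨⟨hpY, (Nat.le_of_dvd (by omega) hdvd).trans hle⟩, hp, hfp⟩
    have h1 : ∀ c : ℕ, ((S.biUnion fun p => (range Z).filter fun z => p ∣ c + M * z).card : ℝ) ≤
        Z * ξ + η * X := fun c => by
      refine (Nat.cast_le.2 card_biUnion_le).trans ?_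
      rw [Nat.cast_sum]
      refine (sum_le_sum (g := fun p : ℕ => (Z : ℝ) * (1 / (p : ℝ)) + 1) fun p hp => ?_).trans ?_
      · rw [hSdef, mem_filter, mem_Icc] at hp
        refine (Nat.cast_le.2 (card_dvd_linear_le (hbad p hp.2.1 hp.1.1) c Z)).trans ?_
        rw [Nat.cast_add, Nat.cast_one, mul_one_div]
        exact add_le_add Nat.cast_div_le le_rfl
      rw [sum_add_distrib, ← mul_sum, sum_const, nsmul_eq_mul, mul_one]
      refine add_le_add (mul_le_mul_of_nonneg_left ?_ (Nat.cast_nonneg Z)) ?_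
      · refine le_trans ?_ (((summable_nat_add_iff Y).2 hS).sum_le_tsum (range (X + 1))
          (fun j _ => Set.indicator_nonneg (fun p _ => by positivity) _) |>.trans hYtail)
        rw [← sum_image (g := fun j => j + Y) (s := range (X + 1))
          (f := ({p : ℕ | p.Prime ∧ (f p : ℂ) ≠ χ p}.indicator fun p : ℕ => 1 / (p : ℝ)))
          fun a _ b _ e => by simpa using e]
        refine le_of_eq_of_le (sum_congr rfl fun p hp => ?_) (sum_le_sum_of_subset_of_nonneg
          (fun p hp => ?_) fun p _ _ => Set.indicator_nonneg (fun p _ => by positivity) p)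
        · rw [hSdef, mem_filter] at hp
          exact (Set.indicator_of_mem (s := {p : ℕ | p.Prime ∧ (f p : ℂ) ≠ χ p}) hp.2
            fun p : ℕ => 1 / (p : ℝ)).symm
        · rw [hSdef, mem_filter, mem_Icc] at hp
          exact mem_image.2 ⟨p - Y, mem_range.2 (by omega), by omega⟩
      · refine le_trans (Nat.cast_le.2 (card_le_card fun p hp => ?_))
          (hx₀ X (hX ▸ le_trans (by omega) (Nat.le_mul_of_pos_left (Z + 1) (show 0 < Q by omega))))
        rw [hSdef, mem_filter, mem_Icc] at hp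
        exact mem_filter.2 ⟨mem_Icc.2 ⟨hp.2.1.one_le, hp.1.2⟩, hp.2⟩
    have h2 : ∀ c : ℕ, ((T.biUnion fun p => (range Z).filter fun z => p ^ 2 ∣ c + M * z).card : ℝ) ≤
        Z * ξ + Real.sqrt X := fun c => by
      refine (Nat.cast_le.2 card_biUnion_le).trans ?_
      rw [Nat.cast_sum]
      refine (sum_le_sum (g := fun p : ℕ => (Z : ℝ) * ((p : ℝ) ^ 2)⁻¹ + 1) fun p hp => ?_).trans ?_
      · rw [hT, mem_filter, mem_Icc] at hp
        refine (Nat.cast_le.2 (card_dvd_linear_le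
          ((hbad p hp.2 hp.1.1).pow_left 2) c Z)).trans ?_
        rw [Nat.cast_add, Nat.cast_one, ← div_eq_mul_inv]
        exact add_le_add (le_of_le_of_eq Nat.cast_div_le (by push_cast; rfl)) le_rfl
      rw [sum_add_distrib, ← mul_sum, sum_const, nsmul_eq_mul, mul_one]
      refine add_le_add (mul_le_mul_of_nonneg_left ?_ (Nat.cast_nonneg Z)) ?_
      · refine le_trans (sum_le_sum_of_subset_of_nonneg
          (t := Ioo Y (Nat.sqrt X + 1)) (fun p hp => ?_) fun p _ _ => by positivity)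
          ((sum_Ioo_inv_sq_le Y (Nat.sqrt X + 1)).trans ?_)
        · rw [hT, mem_filter, mem_Icc] at hp
          exact mem_Ioo.2 ⟨hp.1.1, by omega⟩
        · rw [div_le_iff₀ (by positivity)]
          rw [div_le_iff₀ hξ0] at hYξ
          linarith
      · refine le_trans (Nat.cast_le.2 ((card_le_card (hT ▸ filter_subset _ _)).trans
          (le_of_le_of_eq (show (Icc (Y + 1) (Nat.sqrt X)).card ≤ Nat.sqrt X by
            rw [Nat.card_Icc]; omega) rfl))) Real.nat_sqrt_le_real_sqrt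
    have h3 := (card_le_card hsub).trans card_biUnion_le
    rw [card_range] at h3
    have h4 : (Z : ℝ) ≤ H * (2 * Z * ξ + η * X + Real.sqrt X) := by
      refine (Nat.cast_le.2 h3).trans ?_
      rw [Nat.cast_sum]
      refine (sum_le_card_nsmul _ _ (2 * (Z : ℝ) * ξ + η * X + Real.sqrt X) fun i _ => ?_).trans
        (by rw [Nat.card_Icc, Nat.add_sub_cancel, nsmul_eq_mul])
      refine (Nat.cast_le.2 (card_union_le _ _)).trans ?_
      rw [Nat.cast_add]
      linarith [h1 (n₀ + i + M), h2 (n₀ + i + M)]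
    have hZ0 : (0 : ℝ) < Z := Nat.cast_pos.2 hZ1
    have hXZ : (X : ℝ) ≤ 2 * Q * Z := by
      rw [hX]
      push_cast
      have : (1 : ℝ) ≤ Z := Nat.one_le_cast.2 hZ1
      nlinarith [(Nat.cast_nonneg Q : (0 : ℝ) ≤ Q)]
    have h5 : η * X ≤ ξ * Z := by
      refine (mul_le_mul_of_nonneg_left hXZ hη0.le).trans (le_of_eq ?_)
      have : (Q : ℝ) ≠ 0 := Nat.cast_ne_zero.2 (by omega)
      rw [hη]
      field_simp
    have h6 : Real.sqrt X ≤ ξ * Z := by
      rw [Real.sqrt_le_left (by positivity)]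
      refine hXZ.trans (le_trans (mul_le_mul_of_nonneg_right hZ3 hZ0.le) (le_of_eq (by ring)))
    have h7 : (H : ℝ) * (4 * ξ) < 1 := by
      rw [hξ, mul_one_div, ← mul_div_assoc, div_lt_one (by positivity)]
      linarith [(Nat.cast_nonneg H : (0 : ℝ) ≤ H)]
    nlinarith [mul_le_mul_of_nonneg_left (add_le_add (add_le_add
      (le_refl (2 * (Z : ℝ) * ξ)) h5) h6) (Nat.cast_nonneg (α := ℝ) H)]
  obtain ⟨n, hn⟩ : ∃ n, n = n₀ + M * (z + 1) := ⟨_, rfl⟩
  have hnD : H.factorial * D ∣ n := hn ▸ dvd_add (Nat.modEq_zero_iff_dvd.1 hn₀D)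
    (dvd_mul_of_dvd_left (hM ▸ dvd_mul_right _ _) _)
  have hnP : ∀ i ∈ I, n + i ≡ P i ^ k i [MOD P i ^ (k i + 1)] := fun i hi => by
    have hdP : P i ^ (k i + 1) ∣ ∏ j ∈ I, P j ^ (k j + 1) :=
      Finset.dvd_prod_of_mem (fun j => P j ^ (k j + 1)) hi
    have h1 : n₀ ≡ P i ^ k i + (P i ^ (k i + 1) - i) [MOD P i ^ (k i + 1)] :=
      (hn₀P.of_dvd hdP).trans (hr i hi)
    have h2 : n ≡ n₀ [MOD P i ^ (k i + 1)] := by
      rw [hn]
      nth_rewrite 2 [← Nat.add_zero n₀]
      exact (Nat.modEq_zero_iff_dvd.2 (dvd_mul_of_dvd_left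
        (hM ▸ dvd_mul_of_dvd_right hdP _) _)).add_left n₀
    refine ((h2.trans h1).add_right i).trans ?_
    have : i ≤ P i ^ (k i + 1) := by
      have hiH : i ≤ H := (mem_Icc.1 (mem_filter.1 (hI ▸ hi)).1).2
      have := hPY i
      exact le_trans (by omega) (Nat.le_self_pow (Nat.succ_ne_zero _) _)
    rw [Nat.add_assoc, Nat.sub_add_cancel this]
    nth_rewrite 2 [← Nat.add_zero (P i ^ k i)]
    exact (Nat.modEq_zero_iff_dvd.2 dvd_rfl).add_left _
  have hall : ∀ i ∈ Icc 1 H, f (n + i) = 1 := fun i hi => by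
    have hi' := mem_Icc.1 hi
    obtain ⟨w, hw⟩ : i ∣ n :=
      ((Nat.dvd_factorial hi'.1 hi'.2).trans (dvd_mul_right _ _)).trans hnD
    obtain ⟨u, hu⟩ : ∃ u, u = w + 1 := ⟨_, rfl⟩
    have hnu : n + i = i * u := by rw [hu, hw, Nat.mul_add, Nat.mul_one]
    have hDw : D ∣ w := by
      obtain ⟨c, hc⟩ := hnD
      obtain ⟨e, he⟩ := Nat.dvd_factorial hi'.1 hi'.2
      refine ⟨e * c, Nat.eq_of_mul_eq_mul_left hi'.1 ?_⟩
      rw [← hw, hc, he]
      ring
    have hu1 : ∀ d, d ∣ D → Nat.Coprime d u := fun d hd => by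
      obtain ⟨c, hc⟩ := hd.trans hDw
      rw [hu, hc]
      exact Nat.coprime_mul_left_add_right d 1 c |>.2 (Nat.coprime_one_right d)
    have hχu : χ u = 1 := by
      obtain ⟨c, hc⟩ := (hD ▸ dvd_mul_right q _ : q ∣ D).trans hDw
      rw [hu, hc]
      simp
    have hfu : f (n + i) = f i * f u := by
      rw [hnu]
      exact hf.mul i u (hu1 i ((Nat.dvd_factorial hi'.1 hi'.2).trans
        (hD ▸ dvd_mul_of_dvd_right (dvd_mul_right _ _) _)))
    have hprimes : ∀ p, p.Prime → p ∣ u →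
        (∃ j ∈ I, P j = p ∧ j = i) ∨ Y < p := fun p hp hpu => by
      by_contra! h
      have hpnd : ¬p ∣ D := fun hd => hp.not_dvd_one ((hu1 p hd) ▸ Nat.dvd_gcd dvd_rfl hpu)
      have hpH : H < p := by
        by_contra! hle
        exact hpnd (hD ▸ dvd_mul_of_dvd_right (dvd_mul_of_dvd_left
          (hp.dvd_factorial.2 hle) _) _)
      by_cases hsel : ∀ j ∈ I, P j ≠ p
      · refine hpnd (hD ▸ dvd_mul_of_dvd_right (dvd_mul_of_dvd_right
          (Finset.dvd_prod_of_mem (fun p => p) ?_) _) _)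
        rw [hO, mem_filter, mem_Icc]
        exact ⟨⟨hpH, h.2⟩, hp, hsel⟩
      · push Not at hsel
        obtain ⟨j, hj, rfl⟩ := hsel
        refine h.1 j hj rfl ?_
        have h1 : P j ∣ n + j := by
          rw [(hnP j hj).dvd_iff (dvd_pow_self _ (Nat.succ_ne_zero _))]
          exact dvd_pow_self _ (hk0 j)
        have h2 : P j ∣ n + i := hnu ▸ dvd_mul_of_dvd_right hpu i
        have hjH := (mem_Icc.1 (mem_filter.1 (hI ▸ hj)).1).2
        have h3 := (Nat.modEq_zero_iff_dvd.2 h1).trans (Nat.modEq_zero_iff_dvd.2 h2).symm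
        exact (Nat.ModEq.add_left_cancel' n h3).eq_of_lt_of_lt (by omega) (by omega)
    have hbig : ∀ p, p.Prime → p ∣ u → Y < p →
        (f (p ^ u.factorization p) : ℂ) = χ p ^ u.factorization p := fun p hp hpu hpY => by
      have hdiv : p ∣ n₀ + i + M * (z + 1) := by
        rw [Nat.add_right_comm, ← hn, hnu]
        exact dvd_mul_of_dvd_right hpu i
      obtain ⟨he, hsq⟩ := hz i hi p hp hpY hdiv
      rw [Nat.add_right_comm, ← hn, hnu] at hsq
      have h1 : u.factorization p = 1 := by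
        refine le_antisymm ?_ (hp.factorization_pos_of_dvd (by omega) hpu)
        by_contra! h2
        exact hsq (dvd_mul_of_dvd_right
          ((hp.pow_dvd_iff_le_factorization (by omega)).2 h2) i)
      rw [h1, pow_one, pow_one, he]
    have hval : (f u : ℂ) = if i ∈ I then -1 else 1 := by
      split_ifs with hiI
      · obtain ⟨p, hp⟩ : ∃ p, p = P i := ⟨_, rfl⟩
        have hpp : p.Prime := hp ▸ hPp i
        have hpi : ¬p ∣ i := Nat.not_dvd_of_pos_of_lt hi'.1 (by have := hPY i; omega)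
        have hfac : u.factorization p = k i := by
          have h1 := hnP i hiI
          rw [hnu, ← hp] at h1
          have hd : p ^ k i ∣ i * u :=
            (h1.dvd_iff (pow_dvd_pow p (Nat.le_succ _))).2 dvd_rfl
          have hd' : ¬p ^ (k i + 1) ∣ i * u := fun h => by
            have h2 := (h1.dvd_iff dvd_rfl).1 h
            exact absurd ((Nat.pow_dvd_pow_iff_le_right hpp.one_lt).1 h2) (by omega)
          refine le_antisymm ?_ ?_
          · by_contra! h
            exact hd' (dvd_mul_of_dvd_right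
              ((hpp.pow_dvd_iff_le_factorization (by omega)).2 h) i)
          · refine (hpp.pow_dvd_iff_le_factorization (by omega)).1 ?_
            exact ((hpp.coprime_iff_not_dvd.2 hpi).pow_left _).dvd_of_dvd_mul_left hd
        obtain ⟨v, hv⟩ : p ^ k i ∣ u := hfac ▸ Nat.ordProj_dvd u p
        have hv0 : v ≠ 0 := by rintro rfl; omega
        have hpv : ¬p ∣ v := fun h => by
          obtain ⟨c, rfl⟩ := h
          have : u.factorization p ≥ k i + 1 :=
            (hpp.pow_dvd_iff_le_factorization (by omega)).1 ⟨c, by rw [hv, pow_succ, mul_assoc]⟩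
          omega
        have hcop' : Nat.Coprime (p ^ k i) v := (hpp.coprime_iff_not_dvd.2 hpv).pow_left _
        have hfv : (f v : ℂ) = χ v := cast_eq_char hf χ hv0 fun l hl hlv => by
          have hlp : l ≠ p := fun e => hpv (e ▸ hlv)
          have hlY : Y < l := by
            rcases hprimes l hl (hv ▸ dvd_mul_of_dvd_right hlv _) with ⟨j, _, hj, rfl⟩ | h
            · exact absurd (hj.symm.trans hp.symm) hlp
            · exact h
          have e := hbig l hl (hv ▸ dvd_mul_of_dvd_right hlv _) hlY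
          rwa [hv, Nat.factorization_mul (pow_ne_zero _ hpp.ne_zero) hv0, Finsupp.add_apply,
            hpp.factorization_pow, Finsupp.single_eq_of_ne hlp, Nat.zero_add] at e
        rw [hv, hf.mul _ _ hcop', Int.cast_mul, hfv, hp, hflip i, neg_mul, ← map_pow,
          ← Nat.cast_pow, ← map_mul, ← Nat.cast_mul, ← hp, ← hv, hχu]
      · rw [← hχu]
        refine cast_eq_char hf χ (by omega) fun p hp hpu => ?_
        refine hbig p hp hpu ?_
        rcases hprimes p hp hpu with ⟨j, hj, -, rfl⟩ | h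
        · exact absurd hj hiI
        · exact h
    by_cases hiI : i ∈ I
    · rw [if_pos hiI] at hval
      rw [hI, mem_filter] at hiI
      rw [hfu, hiI.2, show f u = -1 by exact_mod_cast hval]
      ring
    · rw [if_neg hiI] at hval
      have hi1 : f i = 1 := by
        rcases hf.sign i (by omega) with e | e
        · exact e
        · exact absurd (hI ▸ mem_filter.2 ⟨hi, e⟩) hiI
      rw [hfu, hi1, show f u = 1 by exact_mod_cast hval]
      ring
  have h1 := psum_add f n H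
  rw [sum_congr rfl hall] at h1
  simp only [sum_const, Nat.card_Icc, Nat.add_sub_cancel, nsmul_eq_mul, mul_one] at h1
  have h2 := abs_le.1 (hC (n + H))
  have h3 := abs_le.1 (hC n)
  linarith

end FA.Klurman

end
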