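import Fermat.Agent.ErdosDiscrepancy.Main

/-!
# Steady sequences

If `‖f (n + 1) - f n‖` is `0` in the logarithmic mean, it is `0` in the mean by the weights
`n ^ (-1 - 1/L) / L`, so `∑ wt φ n f n n ^ (-it) → 0` for periodic `φ` of mean zero, uniformly in
bounded `t`.
-/

set_option autoImplicit false

noncomputable section

namespace FA.Klurman

open Finset Filter Complex
open FA.ErdosDisc (wt osc)
open FA.LogChowla (logMean logW harm)
open scoped Topology

/-- The increments. -/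
def jump (f : ℕ → ℂ) (n : ℕ) : ℝ := ‖f (n + 1) - f n‖

theorem jump_le_two {f : ℕ → ℂ} (hf : ∀ n, ‖f n‖ ≤ 1) (n : ℕ) : jump f n ≤ 2 :=
  (norm_sub_le _ _).trans (by linarith [hf (n + 1), hf n])

theorem norm_sub_le_sum_jump (f : ℕ → ℂ) (n : ℕ) : ∀ j : ℕ,
    ‖f (n + j) - f n‖ ≤ ∑ i ∈ range j, jump f (n + i)
  | 0 => by simp
  | j + 1 => by
    rw [sum_range_succ, add_comm (∑ i ∈ range j, jump f (n + i))]
    refine (norm_sub_le_norm_sub_add_norm_sub _ (f (n + j)) _).trans
      (add_le_add (le_of_eq ?_) (norm_sub_le_sum_jump f n j))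
    rw [jump, Nat.add_assoc]

theorem wt_eq_mul {L : ℝ} (hL : 0 < L) {n : ℕ} (hn : n ≠ 0) :
    wt L n = 2 * wt (2 * L) n * Real.exp (-(Real.log n / (2 * L))) := by
  have hn0 : (0 : ℝ) < n := Nat.cast_pos.2 (Nat.pos_of_ne_zero hn)
  rw [wt, wt, Real.rpow_def_of_pos hn0, Real.rpow_def_of_pos hn0]
  have e : Real.exp (Real.log n * -(1 + 1 / (2 * L))) * Real.exp (-(Real.log n / (2 * L))) =
      Real.exp (Real.log n * -(1 + 1 / L)) := by
    rw [← Real.exp_add]
    congr 1
    field_simp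
    ring
  rw [← e]
  field_simp

/-- From the logarithmic mean to the weights. -/
theorem tendsto_tsum_wt_mul {a : ℕ → ℝ} (ha : ∀ n, 0 ≤ a n) {B : ℝ} (hB : ∀ n, a n ≤ B)
    (h : Tendsto (fun N : ℕ => (∑ n ∈ Icc 1 N, a n / n) / Real.log N) atTop (𝓝 0)) :
    Tendsto (fun L : ℝ => ∑' n, wt L n * a n) atTop (𝓝 0) := by
  have hB0 : 0 ≤ B := (ha 0).trans (hB 0)
  rw [Metric.tendsto_nhds]
  intro ε hε
  obtain ⟨K, hK0, hK⟩ : ∃ K : ℝ, 0 < K ∧ 4 * B * Real.exp (-(K / 2)) ≤ ε / 4 := by
    have h1 : Tendsto (fun K : ℝ => 4 * B * Real.exp (-(K / 2))) atTop (𝓝 0) := by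
      simpa using (Real.tendsto_exp_neg_atTop_nhds_zero.comp
        (tendsto_id.atTop_div_const two_pos)).const_mul (4 * B)
    exact ((eventually_gt_atTop (0 : ℝ)).and (h1.eventually (ge_mem_nhds (by positivity)))).exists
  obtain ⟨N₀, hN₀⟩ := eventually_atTop.1
    ((h.eventually (ge_mem_nhds (show (0 : ℝ) < ε / (8 * K) by positivity))).and
      (eventually_ge_atTop 2))
  have hfl : Tendsto (fun L : ℝ => ⌊Real.exp (K * L)⌋₊) atTop atTop :=
    tendsto_nat_floor_atTop.comp (Real.tendsto_exp_atTop.comp (tendsto_id.const_mul_atTop hK0))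
  filter_upwards [hfl.eventually_ge_atTop N₀, eventually_gt_atTop (0 : ℝ),
    (tendsto_id.const_mul_atTop two_pos).eventually ErdosDisc.eventually_tsum_wt_le]
    with L hN hL h2L
  simp only [id_eq] at h2L
  obtain ⟨N, hNdef⟩ : ∃ N, N = ⌊Real.exp (K * L)⌋₊ := ⟨_, rfl⟩
  rw [← hNdef] at hN
  obtain ⟨hsum, hN2⟩ := hN₀ N hN
  have hlog : 0 < Real.log (N : ℝ) := Real.log_pos (Nat.one_lt_cast.2 (by omega))
  have hlogK : Real.log N ≤ K * L := by
    rw [Real.log_le_iff_le_exp (Nat.cast_pos.2 (by omega)), hNdef]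
    exact Nat.floor_le (Real.exp_pos _).le
  have hs : Summable fun n => wt L n * a n :=
    ((ErdosDisc.summable_wt hL).mul_right B).of_nonneg_of_le
      (fun n => mul_nonneg (ErdosDisc.wt_nonneg hL.le n) (ha n))
      fun n => mul_le_mul_of_nonneg_left (hB n) (ErdosDisc.wt_nonneg hL.le n)
  have hs2 : Summable fun n => wt (2 * L) n := ErdosDisc.summable_wt (by linarith)
  have hhead : ∑ n ∈ range (N + 1), wt L n * a n ≤ ε / 4 := by
    rw [sum_range_succ', ErdosDisc.wt_zero hL, zero_mul, add_zero]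
    refine (sum_le_sum (g := fun i : ℕ => a (i + 1) / ((i + 1 : ℕ) : ℝ) / L) fun i _ => ?_).trans ?_
    · rw [wt, div_mul_eq_mul_div, div_eq_mul_inv (a _), mul_comm (a _)]
      refine div_le_div_of_nonneg_right (mul_le_mul_of_nonneg_right ?_ (ha _)) hL.le
      rw [← Real.rpow_neg_one]
      exact Real.rpow_le_rpow_of_exponent_le (Nat.one_le_cast.2 (Nat.succ_pos i))
        (by linarith [show 0 < 1 / L by positivity])
    · rw [← sum_div, div_le_iff₀ hL]
      have e : ∑ i ∈ range N, a (i + 1) / ((i + 1 : ℕ) : ℝ) = ∑ n ∈ Icc 1 N, a n / n := by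
        rw [← Ico_add_one_right_eq_Icc, sum_Ico_eq_sum_range, Nat.add_sub_cancel]
        simp only [Nat.add_comm 1]
      rw [e]
      rw [div_le_iff₀ hlog] at hsum
      calc ∑ n ∈ Icc 1 N, a n / n ≤ ε / (8 * K) * Real.log N := hsum
        _ ≤ ε / (8 * K) * (K * L) := mul_le_mul_of_nonneg_left hlogK (by positivity)
        _ ≤ ε / 4 * L := by
            rw [show ε / (8 * K) * (K * L) = ε / 8 * L by field_simp]
            gcongr
            linarith
  have htail : ∑' n, wt L (n + (N + 1)) * a (n + (N + 1)) ≤ ε / 4 := by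
    refine (((summable_nat_add_iff (N + 1)).2 hs).tsum_le_tsum
      (g := fun n => 2 * wt (2 * L) (n + (N + 1)) * (Real.exp (-(K / 2)) * B)) (fun n => ?_)
      (((summable_nat_add_iff (N + 1)).2 hs2).mul_left 2 |>.mul_right _)).trans ?_
    · rw [wt_eq_mul hL (by omega), mul_assoc (2 * wt (2 * L) _)]
      refine mul_le_mul_of_nonneg_left (mul_le_mul (Real.exp_le_exp.2 ?_) (hB _) (ha _)
        (Real.exp_pos _).le) (mul_nonneg two_pos.le (ErdosDisc.wt_nonneg (by linarith) _))
      rw [neg_le_neg_iff, div_le_div_iff₀ two_pos (by linarith)]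
      have h1 : K * L ≤ Real.log ((n + (N + 1) : ℕ) : ℝ) := by
        rw [Real.le_log_iff_exp_le (Nat.cast_pos.2 (by omega))]
        refine (Nat.lt_floor_add_one _).le.trans ?_
        rw [← hNdef]
        push_cast
        linarith [(Nat.cast_nonneg n : (0 : ℝ) ≤ n)]
      linarith
    · rw [tsum_mul_right, tsum_mul_left]
      have h1 : ∑' n, wt (2 * L) (n + (N + 1)) ≤ 2 := by
        refine le_trans ?_ h2L
        rw [← hs2.sum_add_tsum_nat_add (N + 1)]
        exact le_add_of_nonneg_left (sum_nonneg fun n _ => ErdosDisc.wt_nonneg (by linarith) n)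
      have := mul_le_mul_of_nonneg_right h1
        (show 0 ≤ Real.exp (-(K / 2)) * B by positivity)
      linarith
  have h0 : 0 ≤ ∑' n, wt L n * a n :=
    tsum_nonneg fun n => mul_nonneg (ErdosDisc.wt_nonneg hL.le n) (ha n)
  rw [Real.dist_eq, sub_zero, abs_of_nonneg h0, ← hs.sum_add_tsum_nat_add (N + 1)]
  linarith

/-- **Periodic weights of mean zero kill a steady sequence.** -/
theorem eventually_norm_periodic_le {f : ℕ → ℂ} (hf : ∀ n, ‖f n‖ ≤ 1)
    (h : Tendsto (fun L : ℝ => ∑' n, wt L n * jump f n) atTop (𝓝 0)) {P : ℕ} (hP : 0 < P)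
    {φ : ℕ → ℂ} (hφ1 : ∀ n, ‖φ n‖ ≤ 1) (hφ0 : ∀ n, ∑ j ∈ range P, φ (n + j) = 0)
    {T ε : ℝ} (hε : 0 < ε) :
    ∀ᶠ L : ℝ in atTop, ∀ t : ℝ, |t| ≤ T →
      ‖∑' n, (wt L n : ℂ) * (φ n * (f n * osc t n))‖ ≤ ε := by
  have hinv : Tendsto (fun L : ℝ => ∑' n, wt L n * (n : ℝ)⁻¹) atTop (𝓝 0) := by
    have hsq : Summable fun n : ℕ => ((n : ℝ) ^ 2)⁻¹ := Real.summable_nat_pow_inv.2 one_lt_two
    refine squeeze_zero' (g := fun L : ℝ => (∑' n : ℕ, ((n : ℝ) ^ 2)⁻¹) / L) ?_ ?_
      (tendsto_const_nhds.div_atTop tendsto_id)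
    · filter_upwards [eventually_ge_atTop (0 : ℝ)] with L hL
      exact tsum_nonneg fun n => mul_nonneg (ErdosDisc.wt_nonneg hL n) (by positivity)
    · filter_upwards [eventually_gt_atTop (0 : ℝ)] with L hL
      rw [← tsum_div_const]
      refine hasSum_le (fun n => ?_) (Summable.of_nonneg_of_le
        (fun n => mul_nonneg (ErdosDisc.wt_nonneg hL.le n) (by positivity)) (fun n => ?_)
        (hsq.div_const L)).hasSum (hsq.div_const L).hasSum
      all_goals
        rcases Nat.eq_zero_or_pos n with rfl | hn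
        · simp
        rw [wt, div_mul_eq_mul_div]
        refine div_le_div_of_nonneg_right ?_ hL.le
        rw [sq, mul_inv]
        refine mul_le_mul_of_nonneg_right ?_ (by positivity)
        rw [← Real.rpow_neg_one]
        exact Real.rpow_le_rpow_of_exponent_le (Nat.one_le_cast.2 hn)
          (by linarith [show 0 < 1 / L by positivity])
  have hlim : Tendsto (fun L : ℝ => 2 * P / L + (P * (∑' n, wt L n * jump f n) +
      P * (P * (4 / L)) + |T| * P * ∑' n, wt L n * (n : ℝ)⁻¹)) atTop (𝓝 0) := by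
    have h1 : ∀ c : ℝ, Tendsto (fun L : ℝ => c / L) atTop (𝓝 0) := fun c =>
      tendsto_const_nhds.div_atTop tendsto_id
    simpa using (h1 (2 * P)).add (((h.const_mul (P : ℝ)).add
      (((h1 4).const_mul (P : ℝ)).const_mul (P : ℝ))).add (hinv.const_mul (|T| * P)))
  filter_upwards [hlim.eventually (ge_mem_nhds hε), eventually_gt_atTop (0 : ℝ)] with L hsmall hL
  intro t ht
  obtain ⟨X, hX⟩ : ∃ X : ℕ → ℂ, X = fun n => f n * osc t n := ⟨_, rfl⟩
  have hX1 : ∀ n, ‖X n‖ ≤ 1 := fun n => by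
    rw [hX, norm_mul]
    exact mul_le_one₀ (hf n) (norm_nonneg _) (ErdosDisc.norm_osc_le t n)
  have hFb : ∀ j n, ‖φ (n + j) * X (n + j)‖ ≤ 1 := fun j n => by
    rw [norm_mul]
    exact mul_le_one₀ (hφ1 _) (norm_nonneg _) (hX1 _)
  have hGb : ∀ j n, ‖φ (n + j) * X n‖ ≤ 1 := fun j n => by
    rw [norm_mul]
    exact mul_le_one₀ (hφ1 _) (norm_nonneg _) (hX1 _)
  obtain ⟨E, hE⟩ : ∃ E : ℝ, E = P * (∑' n, wt L n * jump f n) + P * (P * (4 / L)) +
      |T| * P * ∑' n, wt L n * (n : ℝ)⁻¹ := ⟨_, rfl⟩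
  have hshift : ∀ i : ℕ, Summable (fun n => wt L n * jump f (n + i)) ∧
      ∑' n, wt L n * jump f (n + i) ≤ (∑' n, wt L n * jump f n) + i * (4 / L) := fun i => by
    have hb : ∀ k, ‖(jump f k : ℂ)‖ ≤ 2 := fun k => by
      rw [Complex.norm_real, Real.norm_of_nonneg (r := jump f k) (norm_nonneg _)]
      exact jump_le_two hf k
    refine ⟨((ErdosDisc.summable_wt hL).mul_right 2).of_nonneg_of_le
      (fun n => mul_nonneg (ErdosDisc.wt_nonneg hL.le n) (norm_nonneg _))
      fun n => mul_le_mul_of_nonneg_left (jump_le_two hf _) (ErdosDisc.wt_nonneg hL.le n), ?_⟩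
    have h1 := (Complex.abs_re_le_norm _).trans (ErdosDisc.norm_shift_le hL hb i)
    simp only [← Complex.ofReal_mul, ← Complex.ofReal_tsum, sub_re, ofReal_re] at h1
    have := (abs_le.1 h1).2
    linarith [show (i : ℝ) * (2 * 2 / L) = i * (4 / L) by ring]
  have hstep : ∀ j ∈ range P, ‖∑' n, (wt L n : ℂ) * (φ n * X n) -
      ∑' n, (wt L n : ℂ) * (φ (n + j) * X n)‖ ≤ 2 * P / L + E := by
    intro j hj
    rw [mem_range] at hj
    have hjP : (j : ℝ) ≤ P := Nat.cast_le.2 hj.le
    refine (norm_sub_le_norm_sub_add_norm_sub _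
      (∑' n, (wt L n : ℂ) * (φ (n + j) * X (n + j))) _).trans (add_le_add ?_ ?_)
    · rw [norm_sub_rev]
      exact (ErdosDisc.norm_shift_le hL (F := fun n => φ n * X n) (B := 1)
        (fun n => by simpa using hFb 0 n) j).trans (le_trans
          (mul_le_mul_of_nonneg_right hjP (by positivity)) (le_of_eq (by ring)))
    · rw [← (ErdosDisc.summable_wt_mul hL (hFb j)).tsum_sub (ErdosDisc.summable_wt_mul hL (hGb j))]
      have hb : ∀ n : ℕ, ‖(wt L n : ℂ) * (φ (n + j) * X (n + j)) -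
          (wt L n : ℂ) * (φ (n + j) * X n)‖ ≤
            (∑ i ∈ range j, wt L n * jump f (n + i)) + |T| * j * (wt L n * (n : ℝ)⁻¹) := by
        intro n
        rcases Nat.eq_zero_or_pos n with rfl | hn
        · simp [ErdosDisc.wt_zero hL]
        rw [← mul_sub, ← mul_sub, norm_mul, Complex.norm_real,
          Real.norm_of_nonneg (ErdosDisc.wt_nonneg hL.le n), norm_mul, ← mul_sum,
          show |T| * j * (wt L n * (n : ℝ)⁻¹) = wt L n * (|T| * (j / n)) by ring, ← mul_add]
        refine mul_le_mul_of_nonneg_left ((mul_le_of_le_one_left (norm_nonneg _) (hφ1 _)).trans ?_)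
          (ErdosDisc.wt_nonneg hL.le n)
        rw [hX, show f (n + j) * osc t (n + j) - f n * osc t n =
          (f (n + j) - f n) * osc t (n + j) + f n * (osc t (n + j) - osc t n) by ring]
        refine (norm_add_le _ _).trans (add_le_add ?_ ?_)
        · rw [norm_mul]
          exact (mul_le_of_le_one_right (norm_nonneg _) (ErdosDisc.norm_osc_le t _)).trans
            (norm_sub_le_sum_jump f n j)
        · rw [norm_mul]
          exact (mul_le_of_le_one_left (norm_nonneg _) (hf n)).trans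
            ((ErdosDisc.norm_osc_sub_le t hn j).trans
              (mul_le_mul_of_nonneg_right (ht.trans (le_abs_self T)) (by positivity)))
      have hsinv : Summable fun n : ℕ => wt L n * (n : ℝ)⁻¹ :=
        (ErdosDisc.summable_wt hL).of_nonneg_of_le
          (fun n => mul_nonneg (ErdosDisc.wt_nonneg hL.le n) (by positivity))
          fun n => mul_le_of_le_one_right (ErdosDisc.wt_nonneg hL.le n) (Nat.cast_inv_le_one n)
      refine (tsum_of_norm_bounded ((hasSum_sum fun i _ => (hshift i).1.hasSum).add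
        (hsinv.hasSum.mul_left (|T| * j))) hb).trans ?_
      rw [hE]
      refine add_le_add ?_ (mul_le_mul_of_nonneg_right
        (mul_le_mul_of_nonneg_left hjP (abs_nonneg T))
        (tsum_nonneg fun n => mul_nonneg (ErdosDisc.wt_nonneg hL.le n) (by positivity)))
      refine (sum_le_card_nsmul _ _ ((∑' n, wt L n * jump f n) + P * (4 / L)) fun i hi => ?_).trans
        ?_
      · refine (hshift i).2.trans (add_le_add le_rfl
          (mul_le_mul_of_nonneg_right ?_ (by positivity)))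
        exact Nat.cast_le.2 ((mem_range.1 hi).le.trans hj.le)
      · rw [card_range, nsmul_eq_mul, ← mul_add]
        exact mul_le_mul_of_nonneg_right hjP (add_nonneg
          (tsum_nonneg fun n => mul_nonneg (ErdosDisc.wt_nonneg hL.le n) (norm_nonneg _))
          (by positivity))
  have hzero : ∑ j ∈ range P, ∑' n, (wt L n : ℂ) * (φ (n + j) * X n) = 0 := by
    rw [← Summable.tsum_finsetSum fun j _ => ErdosDisc.summable_wt_mul hL (hGb j)]
    simp [← mul_sum, ← sum_mul, hφ0]
  have hmain : (P : ℝ) * ‖∑' n, (wt L n : ℂ) * (φ n * X n)‖ ≤ P * (2 * P / L + E) := by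
    rw [← Complex.norm_natCast P, ← norm_mul, Complex.norm_natCast]
    have e : (P : ℂ) * ∑' n, (wt L n : ℂ) * (φ n * X n) = ∑ j ∈ range P,
        (∑' n, (wt L n : ℂ) * (φ n * X n) - ∑' n, (wt L n : ℂ) * (φ (n + j) * X n)) := by
      rw [sum_sub_distrib, hzero, sub_zero, sum_const, card_range, nsmul_eq_mul]
    rw [e]
    refine (norm_sum_le _ _).trans ((sum_le_card_nsmul _ _ _ hstep).trans_eq ?_)
    rw [card_range, nsmul_eq_mul]
  have := le_of_mul_le_mul_left hmain (Nat.cast_pos.2 hP)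
  rw [hX, hE] at this
  linarith

end FA.Klurman

end
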